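/-
F3 / Dict, pieces (LD) + (CJ) (helper85, for helper84's D2 "places <-> points" over `ℂ`).

* `exists_local_point` : for every `c : ℂ` an explicit point `τ` with `j τ = c`, the order `s` of
  `j - c` at `τ`, a generator `g` of the stabiliser of `τ` modulo `± 1`, and the fact that the
  squared automorphy factor `(c_g τ + d_g)^2` is a primitive `s`-th root of unity.
* `denom_conj_sq` : conjugating `(g, τ)` by `γ` does not change the automorphy factor.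

Everything is stated for the `ℂ`-port `Fermat.Agent.F3Dict` (dir `F3/DictC`).
-/
import Mathlib
import Fermat.Agent.F3.DictC.LocalDatum

set_option autoImplicit false

noncomputable section

namespace Fermat.Agent.F3Dict

open UpperHalfPlane ModularGroup
open scoped MatrixGroups

/-! ### The automorphy factor of `SL(2,ℤ)` -/

/-- The automorphy factor `c τ + d` of `γ ∈ SL(2,ℤ)`, with explicit integer entries. -/
def autFac (γ : SL(2, ℤ)) (z : ℂ) : ℂ := ((γ 1 0 : ℤ) : ℂ) * z + ((γ 1 1 : ℤ) : ℂ)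

theorem autFac_def (γ : SL(2, ℤ)) (z : ℂ) :
    autFac γ z = ((γ 1 0 : ℤ) : ℂ) * z + ((γ 1 1 : ℤ) : ℂ) := rfl

/-- `denom γ τ = c τ + d` with integer entries. -/
theorem denom_eq_autFac (γ : SL(2, ℤ)) (z : ℂ) :
    denom ((γ : SL(2, ℤ)) : GL (Fin 2) ℝ) z = autFac γ z := by
  simp [denom, autFac]

/-- The cocycle relation for `SL(2,ℤ)`. -/
theorem autFac_mul (A B : SL(2, ℤ)) (z : ℍ) :
    autFac (A * B) z = autFac A ((B • z : ℍ) : ℂ) * autFac B z := by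
  have h := denom_cocycle_σ ((A : SL(2, ℤ)) : GL (Fin 2) ℝ) ((B : SL(2, ℤ)) : GL (Fin 2) ℝ) z
  have hσ : σ ((B : SL(2, ℤ)) : GL (Fin 2) ℝ) = ContinuousAlgEquiv.refl ℝ ℂ := by
    rw [σ, if_pos (by simp)]
  rw [hσ] at h
  have hmul : (((A * B : SL(2, ℤ))) : GL (Fin 2) ℝ) =
      ((A : SL(2, ℤ)) : GL (Fin 2) ℝ) * ((B : SL(2, ℤ)) : GL (Fin 2) ℝ) := by
    simp
  rw [← denom_eq_autFac, hmul, h, denom_eq_autFac, ← denom_eq_autFac B]
  rfl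

theorem autFac_one (z : ℂ) : autFac (1 : SL(2, ℤ)) z = 1 := by
  simp [autFac]

/-- **(CJ), unsquared.**  The automorphy factor of a stabiliser element is invariant under
conjugation. -/
theorem autFac_conj (γ g : SL(2, ℤ)) (τ : ℍ) (h : g • τ = τ) :
    autFac (γ⁻¹ * g * γ) ((γ⁻¹ • τ : ℍ) : ℂ) = autFac g τ := by
  have h1 : autFac (γ⁻¹ * g * γ) ((γ⁻¹ • τ : ℍ) : ℂ) =
      autFac γ⁻¹ τ * autFac g τ * autFac γ ((γ⁻¹ • τ : ℍ) : ℂ) := by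
    rw [autFac_mul (γ⁻¹ * g) γ (γ⁻¹ • τ), smul_inv_smul, autFac_mul γ⁻¹ g τ, h]
  have h2 : autFac γ ((γ⁻¹ • τ : ℍ) : ℂ) * autFac γ⁻¹ τ = 1 := by
    rw [← autFac_mul γ γ⁻¹ τ, mul_inv_cancel, autFac_one]
  rw [h1]
  linear_combination (autFac g τ) * h2

theorem conj_smul_eq (γ g : SL(2, ℤ)) (τ : ℍ) (h : g • τ = τ) :
    (γ⁻¹ * g * γ) • (γ⁻¹ • τ) = γ⁻¹ • τ := by
  rw [mul_smul, smul_inv_smul, mul_smul, h]

/-- **(CJ).**  With `γ₀ = γ⁻¹ g γ` and `τ' = γ⁻¹ τ`: `γ₀ τ' = τ'` and the squared automorphy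
factors of `(γ₀, τ')` and `(g, τ)` agree. -/
theorem denom_conj_sq (γ g : SL(2, ℤ)) (τ : ℍ) (h : g • τ = τ) :
    (γ⁻¹ * g * γ) • (γ⁻¹ • τ) = γ⁻¹ • τ ∧
      ((((γ⁻¹ * g * γ) 1 0 : ℤ) : ℂ) * ((γ⁻¹ • τ : ℍ) : ℂ) + (((γ⁻¹ * g * γ) 1 1 : ℤ) : ℂ)) ^ 2 =
        (((g 1 0 : ℤ) : ℂ) * (τ : ℂ) + ((g 1 1 : ℤ) : ℂ)) ^ 2 := by
  refine ⟨conj_smul_eq γ g τ h, ?_⟩
  rw [← autFac_def, ← autFac_def, autFac_conj γ g τ h]

/-! ### The local points -/

theorem isPrimitiveRoot_rho : IsPrimitiveRoot ((ρ : ℍ) : ℂ) 3 := by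
  have h2 : ((ρ : ℍ) : ℂ) ^ 2 = -(ρ : ℂ) - 1 := UpperHalfPlane.ρ_sq
  have h3 : ((ρ : ℍ) : ℂ) ^ 3 = 1 := by
    have : ((ρ : ℍ) : ℂ) ^ 3 = (ρ : ℂ) ^ 2 * (ρ : ℂ) := by ring
    rw [this, h2]
    linear_combination -h2
  have h1 : ((ρ : ℍ) : ℂ) ≠ 1 := by
    intro h
    have := congrArg Complex.im h
    have him : (0 : ℝ) < ((ρ : ℍ) : ℂ).im := (ρ : ℍ).im_pos
    rw [this] at him
    simp at him
  have ho : orderOf ((ρ : ℍ) : ℂ) = 3 := orderOf_eq_prime h3 h1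
  have := IsPrimitiveRoot.orderOf ((ρ : ℍ) : ℂ)
  rwa [ho] at this

theorem S_apply_one_zero : (S : SL(2, ℤ)) 1 0 = 1 := by
  rw [ModularGroup.coe_S]; rfl

theorem S_apply_one_one : (S : SL(2, ℤ)) 1 1 = 0 := by
  rw [ModularGroup.coe_S]; rfl

theorem ST_apply_one_zero : ((S * T : SL(2, ℤ))) 1 0 = 1 := by
  rw [Matrix.SpecialLinearGroup.coe_mul, ModularGroup.coe_S, ModularGroup.coe_T]
  simp [Matrix.mul_apply, Fin.sum_univ_two]

theorem ST_apply_one_one : ((S * T : SL(2, ℤ))) 1 1 = 1 := by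
  rw [Matrix.SpecialLinearGroup.coe_mul, ModularGroup.coe_S, ModularGroup.coe_T]
  simp [Matrix.mul_apply, Fin.sum_univ_two]

/-- **(LD).**  Explicit local point above `j = c`. -/
theorem exists_local_point (M : ℕ) [NeZero M] (hM : 2 ≤ M) (c : ℂ) :
    ∃ (τ : ℍ) (s : ℕ) (g : SL(2, ℤ)), jFun τ = c ∧ 0 < s ∧
      valLL M τ (jLL M - algebraMap ℂ (LL M) c) = WithZero.exp (-(s : ℤ)) ∧ g • τ = τ ∧
      (s = 1 ∨ s = 2 ∨ s = 3) ∧
      (∀ k : ℤ, (∀ x : LL M, (g ^ k) • x = x) ↔ (s : ℤ) ∣ k) ∧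
      IsPrimitiveRoot ((((g 1 0 : ℤ) : ℂ) * (τ : ℂ) + ((g 1 1 : ℤ) : ℂ)) ^ 2) s := by
  by_cases hc1 : c = 1728
  · -- the elliptic point `i`
    subst hc1
    refine ⟨UpperHalfPlane.I, 2, ModularGroup.S, JLocal.jFun_I, by norm_num, ?_,
      JLocal.S_smul_I', Or.inr (Or.inl rfl), ?_, ?_⟩
    · refine valLL_jLL_sub M _ _ 2 ?_
      rw [iota_ofNat_1728]
      exact JLocal.analyticOrderAt_jFun_I
    · intro k
      rw [S_zpow_smul_eq_iff M hM k]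
      norm_num
    · rw [S_apply_one_zero, S_apply_one_one]
      have : (((1 : ℤ) : ℂ) * ((UpperHalfPlane.I : ℍ) : ℂ) + ((0 : ℤ) : ℂ)) ^ 2 = -1 := by
        simp
      rw [this]
      exact IsPrimitiveRoot.neg_one 0 (by norm_num)
  by_cases hc0 : c = 0
  · -- the elliptic point `ρ`
    subst hc0
    refine ⟨UpperHalfPlane.ρ, 3, ModularGroup.S * ModularGroup.T, JLocal.jFun_rho, by norm_num,
      ?_, JLocal.ST_smul_rho, Or.inr (Or.inr rfl), ?_, ?_⟩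
    · refine valLL_jLL_sub M _ _ 3 ?_
      simp only [map_zero, sub_zero]
      exact JLocal.analyticOrderAt_jFun_rho
    · intro k
      rw [ST_zpow_smul_eq_iff M hM k]
      norm_num
    · rw [ST_apply_one_zero, ST_apply_one_one]
      have h2 : ((ρ : ℍ) : ℂ) ^ 2 = -(ρ : ℂ) - 1 := UpperHalfPlane.ρ_sq
      have : (((1 : ℤ) : ℂ) * ((UpperHalfPlane.ρ : ℍ) : ℂ) + ((1 : ℤ) : ℂ)) ^ 2 =
          ((ρ : ℍ) : ℂ) := by
        push_cast
        linear_combination h2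
      rw [this]
      exact isPrimitiveRoot_rho
  · -- a generic point
    obtain ⟨τ₀, hτ₀⟩ := JLocal.jFun_surjective c
    have h0 : jFun τ₀ ≠ 0 := by
      rw [hτ₀]
      exact hc0
    have h1 : jFun τ₀ ≠ 1728 := by
      rw [hτ₀]
      exact hc1
    refine ⟨τ₀, 1, 1, hτ₀, by norm_num, ?_, one_smul _ _, Or.inl rfl, ?_, ?_⟩
    · refine valLL_jLL_sub M _ _ 1 ?_
      rw [← hτ₀]
      exact_mod_cast JLocal.analyticOrderAt_jFun_sub τ₀ h0 h1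
    · intro k
      simp
    · have : ((((1 : SL(2, ℤ)) 1 0 : ℤ) : ℂ) * (τ₀ : ℂ) + (((1 : SL(2, ℤ)) 1 1 : ℤ) : ℂ)) ^ 2
          = 1 := by
        simp
      rw [this]
      exact IsPrimitiveRoot.one

end Fermat.Agent.F3Dict
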