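/-
Cluster A / F3-I2, piece (D2): (F1) every place of `F` above `t = 0` is induced by a
`Γ`-translate of the valuation `w` of the Galois closure (helper84).
Same setting and the same ring tower `A = K[t] ⊆ B_F ⊆ B_L` as `S24/ZeroPlaces.lean`.
-/
import Mathlib
import Fermat.Prelude.Def_AlgebraicCurve_CanonicalDivisor
import Fermat.Agent.S24.ZeroPlaces
import Fermat.Agent.S24.Residue
import Fermat.Agent.F3.Dict.PlaceVal

set_option autoImplicit false
set_option linter.style.haveILetI false

noncomputable section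
open IntermediateField Polynomial AlgebraicCurve IsDedekindDomain
open scoped IntermediateField.algebraAdjoinAdjoin Pointwise

namespace Fermat.Agent.F3Places
open Fermat.Agent.S24Gal Fermat.Agent.S24Fib

variable {K F L Γ : Type*} [Field K] [IsAlgClosed K] [CharZero K]
    [Field F] [Algebra K F] [Field L] [Algebra K L] [Algebra F L] [IsScalarTower K F L]
    [Group Γ] [MulSemiringAction Γ L] [SMulCommClass Γ K L]

set_option maxHeartbeats 1000000 in
set_option synthInstance.maxHeartbeats 400000 in
/-- (F1) Every place of `F` above `t = 0` is induced by a `Γ`-translate of `w`. -/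
theorem exists_smul_le_one_of_place'
    (t : F) (httr : Transcendental K t)
    (hfin : ∃ Γ' : Subgroup Γ, Γ'.FiniteIndex ∧ ∀ g ∈ Γ', ∀ x : L, g • x = x)
    (ht : ∀ g : Γ, g • algebraMap F L t = algebraMap F L t)
    (hfix : ∀ x : L, (∀ g : Γ, g • x = x) →
      x ∈ IntermediateField.adjoin K {algebraMap F L t})
    (w : Valuation L (WithZero (Multiplicative ℤ))) (s : ℕ)
    (hwK : ∀ a : K, a ≠ 0 → w (algebraMap K L a) = 1)
    (hs : 0 < s)
    (hw : w (algebraMap F L t) = WithZero.exp (-(s : ℤ)))
    (v : Place K F) (hv : 0 < v.ord t) :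
    ∃ γ : Γ, ∀ x ∈ v.toValuationSubring, w (γ • algebraMap F L x) ≤ 1 := by
  -- groups
  haveI : Finite (imageGroup Γ L) := finite_imageGroup hfin
  have hG : IsGaloisGroup (imageGroup Γ L) K⟮t⟯ L := isGaloisGroup_imageGroup t ht hfix
  have hGF : IsGaloisGroup (fixF Γ L F) F L := IsGaloisGroup.of_isScalarTower _ K⟮t⟯ L F
  haveI : FiniteDimensional K⟮t⟯ L := hG.finiteDimensional
  haveI : FiniteDimensional F L := hGF.finiteDimensional
  haveI : FiniteDimensional K⟮t⟯ F := FiniteDimensional.left K⟮t⟯ F L
  -- rings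
  haveI := isDedekindDomain_adjoin httr
  haveI := isDedekindDomain_integralClosure F httr
  haveI := isDedekindDomain_integralClosure L httr
  haveI := isFractionRing_integralClosure (K := K) F t
  haveI := isFractionRing_integralClosure (K := K) L t
  haveI := finite_integralClosure L httr
  haveI := flat_integralClosure L httr
  haveI hcommK : SMulCommClass (imageGroup Γ L) K⟮t⟯ L := hG.commutes
  haveI hcommA : SMulCommClass (imageGroup Γ L) (Algebra.adjoin K {t}) L :=
    ⟨fun σ a x => by
      rw [← IsScalarTower.algebraMap_smul K⟮t⟯ a x, smul_comm,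
        IsScalarTower.algebraMap_smul K⟮t⟯ a (σ • x)]⟩
  haveI hI1 : IsGaloisGroup (imageGroup Γ L) (Algebra.adjoin K {t})
      (integralClosure (Algebra.adjoin K {t}) L) :=
    IsGaloisGroup.of_isFractionRing (imageGroup Γ L) (Algebra.adjoin K {t})
      (integralClosure (Algebra.adjoin K {t}) L) K⟮t⟯ L
  letI := algebraBFBL (K := K) (L := L) t
  haveI := isScalarTower_A_BF_BL (K := K) (L := L) t
  haveI := isScalarTower_BF_BL_L (K := K) (L := L) t
  haveI := faithfulSMul_BF_BL (K := K) (L := L) t
  haveI : Algebra.IsIntegral (Algebra.adjoin K {t}) (integralClosure (Algebra.adjoin K {t}) L) :=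
    inferInstance
  haveI : Algebra.IsIntegral (integralClosure (Algebra.adjoin K {t}) F)
      (integralClosure (Algebra.adjoin K {t}) L) :=
    Algebra.IsIntegral.tower_top (Algebra.adjoin K {t})
  haveI hI2 : IsGaloisGroup (fixF Γ L F) (integralClosure (Algebra.adjoin K {t}) F)
      (integralClosure (Algebra.adjoin K {t}) L) :=
    IsGaloisGroup.of_isFractionRing (fixF Γ L F) (integralClosure (Algebra.adjoin K {t}) F)
      (integralClosure (Algebra.adjoin K {t}) L) F L
  -- the valuation on `B_L`
  have hwt1 : w (algebraMap F L t) ≤ 1 := by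
    rw [hw, ← WithZero.exp_zero, WithZero.exp_le_exp]
    omega
  let w' : Valuation (integralClosure (Algebra.adjoin K {t}) L) (WithZero (Multiplicative ℤ)) :=
    w.comap (algebraMap (integralClosure (Algebra.adjoin K {t}) L) L)
  have hw' : ∀ b, w' b ≤ 1 := fun b =>
    valuation_le_one_of_isIntegral w (valuation_adjoin_le_one w hwK t hwt1) b.2
  have hw't : w' (algebraMap (Algebra.adjoin K {t}) (integralClosure (Algebra.adjoin K {t}) L)
      (tA K t)) = WithZero.exp (-(s : ℤ)) := hw
  have hwt2 : w' (algebraMap (Algebra.adjoin K {t}) (integralClosure (Algebra.adjoin K {t}) L)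
      (tA K t)) < 1 := by
    rw [hw't, ← WithZero.exp_zero, WithZero.exp_lt_exp]
    omega
  haveI hQover : (Fermat.Agent.S24Dec.centre w' hw').LiesOver (Ideal.span {tA K t}) :=
    Fermat.Agent.S24Dec.centre_liesOver w' hw' (tA K t) (isMaximal_span_tA httr) hwt2
  -- the prime of `B_F` attached to `v`
  have hmax := isMaximal_span_tA httr
  have ht0 : t ≠ 0 := fun h => httr (h ▸ isAlgebraic_zero)
  have htB : algebraMap (integralClosure (Algebra.adjoin K {t}) F) F (algebraMap (Algebra.adjoin K {t}) (integralClosure (Algebra.adjoin K {t}) F) (tA K t)) = t := rfl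
  have htB0 : algebraMap (Algebra.adjoin K {t}) (integralClosure (Algebra.adjoin K {t}) F) (tA K t) ≠ 0 := by
    intro h
    apply ht0
    rw [← htB, h, map_zero]
  have htv : t ∈ v.toValuationSubring := Fermat.Agent.S24Res.mem_of_ord_nonneg v hv.le
  have hA := algebraMap_adjoin_mem v htv
  have hB : ∀ b : (integralClosure (Algebra.adjoin K {t}) F), algebraMap (integralClosure (Algebra.adjoin K {t}) F) F b ∈ v.toValuationSubring := fun b =>
    Fermat.Agent.S24Bridge.mem_of_isIntegral v hA b.2
  obtain ⟨P, hP⟩ := Fermat.Agent.S24Bridge.exists_eq_ofHeightOneSpectrum v hB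
  have hmem : algebraMap (Algebra.adjoin K {t}) (integralClosure (Algebra.adjoin K {t}) F) (tA K t) ∈ P.asIdeal := by
    rw [Fermat.Agent.S24Bridge.mem_asIdeal_iff_ord_pos (K := K) (F := F) P _ htB0, htB, ← hP]
    exact hv
  have hover : P.asIdeal.LiesOver (Ideal.span {tA K t}) := by
    constructor
    have hle : Ideal.span {tA K t} ≤ P.asIdeal.under (Algebra.adjoin K {t}) := by
      rw [Ideal.span_le, Set.singleton_subset_iff]
      exact hmem
    have hne : P.asIdeal.under (Algebra.adjoin K {t}) ≠ ⊤ :=
      (Ideal.comap_isPrime _ P.asIdeal).ne_top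
    exact hmax.eq_of_le hne hle
  -- transitivity
  obtain ⟨σ, hσ⟩ := Fermat.Agent.S24Orb.belowPrime_surjective (B := integralClosure (Algebra.adjoin K {t}) F) (G := imageGroup Γ L)
    (fixF Γ L F) (Ideal.span {tA K t}) (Fermat.Agent.S24Dec.centre w' hw')
    ⟨P.asIdeal, P.isPrime, hover⟩
  have hσ' : ((σ⁻¹ • Fermat.Agent.S24Dec.centre w' hw').under (integralClosure (Algebra.adjoin K {t}) F)) = P.asIdeal :=
    congrArg Subtype.val hσ
  obtain ⟨γ, rfl⟩ := toImage_surjective (Γ := Γ) (L := L) σ
  -- membership in `P` in terms of `w`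
  have hPw : ∀ b : (integralClosure (Algebra.adjoin K {t}) F), b ∈ P.asIdeal ↔ w (γ • algebraMap F L (b : F)) < 1 := by
    intro b
    rw [← hσ', Ideal.under_def, Ideal.mem_comap, Ideal.mem_inv_pointwise_smul_iff,
      Fermat.Agent.S24Dec.mem_centre]
    rfl
  have hBw : ∀ b : (integralClosure (Algebra.adjoin K {t}) F), w (γ • algebraMap F L (b : F)) ≤ 1 := by
    intro b
    exact hw' ((toImage Γ L γ) • (algebraMap (integralClosure (Algebra.adjoin K {t}) F) (integralClosure (Algebra.adjoin K {t}) L) b))
  refine ⟨γ, fun x hx => ?_⟩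
  rw [hP] at hx
  obtain ⟨b, s', hs', rfl⟩ := Fermat.Agent.S24Bridge.exists_div_of_mem P hx
  have h1 : w (γ • algebraMap F L (s' : F)) = 1 := by
    refine le_antisymm (hBw s') ?_
    by_contra hlt
    rw [not_le] at hlt
    exact hs' ((hPw s').mpr hlt)
  rw [map_div₀, smul_div₀', map_div₀]
  show w (γ • algebraMap F L (b : F)) / w (γ • algebraMap F L (s' : F)) ≤ 1
  rw [h1, div_one]
  exact hBw b

end Fermat.Agent.F3Places
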