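/-
Cluster A / F3-I2, piece (D2), abstract form: every place of `F` comes from a point of the
`j`-line through the Galois closure (helper84).
  `exists_smul_ord_eq_of_place'` : (F1) + (V2), one fibre;
  `exists_point_of_place'`       : (G), all places.
-/
import Mathlib
import Fermat.Prelude.Def_AlgebraicCurve_CanonicalDivisor
import Fermat.Agent.S24.Glue
import Fermat.Agent.F3.Dict.PlaceVal
import Fermat.Agent.F3.Dict.PlacesFibre

set_option autoImplicit false
set_option linter.style.haveILetI false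

noncomputable section
open IntermediateField AlgebraicCurve

namespace Fermat.Agent.F3Places
open Fermat.Agent.S24Gal

variable {K F L Γ : Type*} [Field K] [IsAlgClosed K] [CharZero K]
    [Field F] [Algebra K F] [Field L] [Algebra K L] [Algebra F L] [IsScalarTower K F L]
    [Group Γ] [MulSemiringAction Γ L] [SMulCommClass Γ K L]

/-- the valuation `x ↦ w (γ • x)` of `F`. -/
def pullVal (w : Valuation L (WithZero (Multiplicative ℤ))) (γ : Γ) :
    Valuation F (WithZero (Multiplicative ℤ)) :=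
  (w.comap (MulSemiringAction.toRingHom Γ L γ)).comap (algebraMap F L)

@[simp] theorem pullVal_apply (w : Valuation L (WithZero (Multiplicative ℤ))) (γ : Γ) (x : F) :
    pullVal (F := F) w γ x = w (γ • algebraMap F L x) := rfl

/-- (F1) + (V2): every place of `F` above `t = 0` is `x ↦ w (γ • x)` up to a factor `e`. -/
theorem exists_smul_ord_eq_of_place'
    (t : F) (httr : Transcendental K t)
    (hfin : ∃ Γ' : Subgroup Γ, Γ'.FiniteIndex ∧ ∀ g ∈ Γ', ∀ x : L, g • x = x)
    (ht : ∀ g : Γ, g • algebraMap F L t = algebraMap F L t)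
    (hfix : ∀ x : L, (∀ g : Γ, g • x = x) →
      x ∈ IntermediateField.adjoin K {algebraMap F L t})
    (w : Valuation L (WithZero (Multiplicative ℤ))) (s : ℕ)
    (hwK : ∀ a : K, a ≠ 0 → w (algebraMap K L a) = 1)
    (hs : 0 < s)
    (hw : w (algebraMap F L t) = WithZero.exp (-(s : ℤ)))
    (v : Place K F) (hv : 0 < v.ord t) :
    ∃ (γ : Γ) (e : ℕ), 0 < e ∧
      ∀ x : F, x ≠ 0 → -WithZero.log (w (γ • algebraMap F L x)) = (e : ℤ) * v.ord x := by
  obtain ⟨γ, hγ⟩ := exists_smul_le_one_of_place' t httr hfin ht hfix w s hwK hs hw v hv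
  have ht0 : t ≠ 0 := fun h => httr (h ▸ isAlgebraic_zero)
  have hnt : ∃ x : F, x ≠ 0 ∧ pullVal (F := F) w γ x ≠ 1 := by
    refine ⟨t, ht0, ?_⟩
    rw [pullVal_apply, ht, hw, ← WithZero.exp_zero]
    intro h
    have := WithZero.exp_injective h
    omega
  obtain ⟨e, he, h⟩ := exists_mul_ord_eq_of_valuation' v (pullVal (F := F) w γ) hγ hnt
  exact ⟨γ, e, he, h⟩

/-- `F` is a function field over `K`, witnessed by `t`. -/
theorem isFunctionFieldOver_of_galois_datum
    (t : F) (httr : Transcendental K t)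
    (hfin : ∃ Γ' : Subgroup Γ, Γ'.FiniteIndex ∧ ∀ g ∈ Γ', ∀ x : L, g • x = x)
    (ht : ∀ g : Γ, g • algebraMap F L t = algebraMap F L t)
    (hfix : ∀ x : L, (∀ g : Γ, g • x = x) →
      x ∈ IntermediateField.adjoin K {algebraMap F L t}) :
    Fermat.Agent.S24Diff.IsFunctionFieldOver K F t := by
  haveI : Finite (imageGroup Γ L) := finite_imageGroup hfin
  have hG : IsGaloisGroup (imageGroup Γ L) K⟮t⟯ L := isGaloisGroup_imageGroup t ht hfix
  have hGF : IsGaloisGroup (fixF Γ L F) F L := IsGaloisGroup.of_isScalarTower _ K⟮t⟯ L F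
  haveI : FiniteDimensional K⟮t⟯ L := hG.finiteDimensional
  haveI : FiniteDimensional F L := hGF.finiteDimensional
  exact ⟨httr, FiniteDimensional.left K⟮t⟯ F L⟩

/-- (G) Every place of `F` comes from a point of the `j`-line. -/
theorem exists_point_of_place'
    (j : F) (hjtr : Transcendental K j)
    (hfin : ∃ Γ' : Subgroup Γ, Γ'.FiniteIndex ∧ ∀ g ∈ Γ', ∀ x : L, g • x = x)
    (hj : ∀ g : Γ, g • algebraMap F L j = algebraMap F L j)
    (hfix : ∀ x : L, (∀ g : Γ, g • x = x) →
      x ∈ IntermediateField.adjoin K {algebraMap F L j})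
    (w : K → Valuation L (WithZero (Multiplicative ℤ))) (s : K → ℕ)
    (hwK : ∀ c (a : K), a ≠ 0 → w c (algebraMap K L a) = 1)
    (hs : ∀ c, 0 < s c)
    (hw : ∀ c, w c (algebraMap F L (j - algebraMap K F c)) = WithZero.exp (-(s c : ℤ)))
    (winf : Valuation L (WithZero (Multiplicative ℤ))) (sinf : ℕ)
    (hwinfK : ∀ a : K, a ≠ 0 → winf (algebraMap K L a) = 1)
    (hsinf : 0 < sinf)
    (hwinf : winf (algebraMap F L j) = WithZero.exp (sinf : ℤ))
    (v : Place K F) :
    (∃ (c : K) (γ : Γ) (e : ℕ), 0 < v.ord (j - algebraMap K F c) ∧ 0 < e ∧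
      ∀ x : F, x ≠ 0 → -WithZero.log (w c (γ • algebraMap F L x)) = (e : ℤ) * v.ord x) ∨
    (∃ (γ : Γ) (e : ℕ), v.ord j < 0 ∧ 0 < e ∧
      ∀ x : F, x ≠ 0 → -WithZero.log (winf (γ • algebraMap F L x)) = (e : ℤ) * v.ord x) := by
  have hff := isFunctionFieldOver_of_galois_datum j hjtr hfin hj hfix
  have hjK : j ∉ Set.range (algebraMap K F) := by
    rintro ⟨a, rfl⟩
    exact hjtr (isAlgebraic_algebraMap (R := K) (A := F) a)
  rcases Fermat.Agent.S24Res.exists_ord_sub_pos_or_neg hff v hjK with ⟨c, hc⟩ | hneg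
  · left
    obtain ⟨γ, e, he, h⟩ := exists_smul_ord_eq_of_place' (j - algebraMap K F c)
      (Fermat.Agent.S24Glue.transcendental_sub_const hjtr c) hfin
      (Fermat.Agent.S24Glue.smul_algebraMap_sub hj c)
      (fun x hx => by
        have := hfix x hx
        rw [map_sub, ← IsScalarTower.algebraMap_apply K F L,
          Fermat.Agent.S24Glue.adjoin_sub_const_eq]
        exact this)
      (w c) (s c) (hwK c) (hs c) (hw c) v hc
    exact ⟨c, γ, e, hc, he, h⟩
  · right
    have hpos : 0 < v.ord j⁻¹ := by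
      rw [Place.ord_inv]
      omega
    obtain ⟨γ, e, he, h⟩ := exists_smul_ord_eq_of_place' j⁻¹
      (Fermat.Agent.S24Glue.transcendental_inv' hjtr) hfin
      (Fermat.Agent.S24Glue.smul_algebraMap_inv hj)
      (fun x hx => by
        have := hfix x hx
        rw [map_inv₀, Fermat.Agent.S24Glue.adjoin_inv_eq']
        exact this)
      winf sinf hwinfK hsinf
      (by rw [map_inv₀, map_inv₀, hwinf, ← WithZero.exp_neg]) v hpos
    exact ⟨γ, e, hneg, he, h⟩

end Fermat.Agent.F3Places
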