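/-
Cluster A / F3-I2, piece (D2), sub-lemma (F2) of `Fermat/Agent/F3/Dict/PlacesAbstract.lean`
(helper24 for helper84): in a Galois datum, the factor `e` in `- log (w (γ • x)) = e * ord_v x`
is the number of `k mod s` with `γ⁻¹ g ^ k γ ∈ H`.

Proof: `A = K[t] ⊆ B_F ⊆ B_L` the integral closures, `Q` = centre of `w` on `B_L`, `P = Q ∩ B_F`.
* `e(Q/A) = #Stab_G(Q) = #⟨g⟩ = s`            (Mathlib `Ideal.card_stabilizer_eq`, S24 `Decomposition`);
* `e(Q/B_F) = #Stab_H(Q) = #{k < s | g ^ k ∈ H}` (same, inertia degree `1` by the tower formula);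
* `e(Q/A) = e(P/A) * e(Q/B_F)`                (Mathlib `Ideal.ramificationIdx_tower`);
* `e(P/A) = ord_v t` and `s = e * ord_v t`    (hypothesis at `x = t`).
-/
import Mathlib
import Fermat.Prelude.Def_AlgebraicCurve_CanonicalDivisor
import Fermat.Agent.S24.ZeroPlaces
import Fermat.Agent.S24.Residue

set_option autoImplicit false
set_option linter.unusedSectionVars false
set_option linter.style.haveILetI false

noncomputable section
open IntermediateField Polynomial AlgebraicCurve IsDedekindDomain
open scoped IntermediateField.algebraAdjoinAdjoin Pointwise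

namespace Fermat.Agent.F3Ram

/-! ### group theory: counting the powers of `x` in a subgroup -/

open Classical in
theorem card_zpowers_subgroupOf {G : Type*} [Group G] (x : G) (s : ℕ) (hs : 0 < s)
    (hord : orderOf x = s) (H' : Subgroup G) :
    Nat.card ↥((Subgroup.zpowers x).subgroupOf H') =
      ((Finset.range s).filter (fun k => x ^ k ∈ H')).card := by
  rw [← Nat.card_eq_finsetCard]
  symm
  let f : ↥((Finset.range s).filter (fun k => x ^ k ∈ H')) → ↥((Subgroup.zpowers x).subgroupOf H') :=
    fun k => ⟨⟨x ^ (k : ℕ), (Finset.mem_filter.mp k.2).2⟩, ⟨(k : ℕ), by simp⟩⟩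
  refine Nat.card_eq_of_bijective f ⟨?_, ?_⟩
  · rintro ⟨k, hk⟩ ⟨l, hl⟩ h
    have h1 : x ^ k = x ^ l := congrArg (fun y : ↥((Subgroup.zpowers x).subgroupOf H') => ((y : H') : G)) h
    have hk' : k < orderOf x := by rw [hord]; exact Finset.mem_range.mp (Finset.mem_filter.mp hk).1
    have hl' : l < orderOf x := by rw [hord]; exact Finset.mem_range.mp (Finset.mem_filter.mp hl).1
    apply Subtype.ext
    exact pow_injOn_Iio_orderOf hk' hl' h1
  · rintro ⟨⟨y, hyH⟩, hy⟩
    obtain ⟨m, hm⟩ : ∃ m : ℤ, x ^ m = y := hy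
    have hspos : (0 : ℤ) < (s : ℤ) := by exact_mod_cast hs
    have h0 : 0 ≤ m % (s : ℤ) := Int.emod_nonneg _ hspos.ne'
    have h1 : m % (s : ℤ) < s := Int.emod_lt_of_pos _ hspos
    have hpow : x ^ (m % (s : ℤ)).toNat = y := by
      rw [← zpow_natCast, Int.toNat_of_nonneg h0, ← hord, zpow_mod_orderOf, hm]
    refine ⟨⟨(m % (s : ℤ)).toNat, ?_⟩, ?_⟩
    · rw [Finset.mem_filter, Finset.mem_range]
      refine ⟨by omega, ?_⟩
      rw [hpow]; exact hyH
    · apply Subtype.ext; apply Subtype.ext
      exact hpow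

theorem stabilizer_subgroup_eq {G X : Type*} [Group G] [MulAction G X] (H' : Subgroup G) (x : X) :
    MulAction.stabilizer H' x = (MulAction.stabilizer G x).subgroupOf H' := by
  ext h
  rw [MulAction.mem_stabilizer_iff, Subgroup.mem_subgroupOf, MulAction.mem_stabilizer_iff]
  rfl


section Tower

variable {K A B C G : Type*} [Field K] [IsAlgClosed K] [CharZero K]
  [CommRing A] [CommRing B] [CommRing C] [Algebra K A] [Algebra A B] [Algebra B C] [Algebra A C]
  [IsScalarTower A B C] [IsDomain A] [IsDomain B] [IsDomain C]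
  [Module.Finite A C] [Module.Flat A C] [Module.Finite B C] [Module.Flat B C]
  [Group G] [Finite G] [MulSemiringAction G C] [IsGaloisGroup G A C]

/-- the decomposition group over the base has `e(Q/p)` elements. -/
theorem card_stabilizer_eq_ramificationIdx (p : Ideal A) [p.IsMaximal]
    (hpK : Function.Surjective ((Ideal.Quotient.mk p).comp (algebraMap K A)))
    (Q : Ideal C) [Q.IsMaximal] [Q.LiesOver p] :
    Nat.card (MulAction.stabilizer G Q) = Q.ramificationIdx A := by
  have : CharZero p.ResidueField := by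
    have : Function.Injective ((algebraMap A p.ResidueField).comp (algebraMap K A)) :=
      RingHom.injective _
    exact charZero_of_injective_ringHom this
  have h1 := Ideal.card_stabilizer_eq (G := G) p Q
  rw [Ideal.ramificationIdxIn_eq_ramificationIdx p Q G, Ideal.inertiaDegIn_eq_inertiaDeg p Q G,
    Fermat.Agent.S24Dec.inertiaDeg_eq_one_of_isAlgClosed (K := K) p hpK Q, mul_one] at h1
  exact h1

/-- the decomposition group over the intermediate ring has `e(Q/P)` elements. -/
theorem card_stabilizer_subgroup_eq_ramificationIdx (H' : Subgroup G) [IsGaloisGroup H' B C]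
    (p : Ideal A) [p.IsMaximal]
    (hpK : Function.Surjective ((Ideal.Quotient.mk p).comp (algebraMap K A)))
    (P : Ideal B) [P.IsMaximal] [P.LiesOver p]
    (Q : Ideal C) [Q.IsMaximal] [Q.LiesOver p] [Q.LiesOver P] :
    Nat.card (MulAction.stabilizer H' Q) = Q.ramificationIdx B := by
  have hinj : Function.Injective
      ((algebraMap B P.ResidueField).comp ((algebraMap A B).comp (algebraMap K A))) :=
    RingHom.injective _
  have : CharZero P.ResidueField := charZero_of_injective_ringHom hinj
  have h1 := Ideal.card_stabilizer_eq (G := H') P Q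
  have hf : Q.inertiaDeg A = 1 :=
    Fermat.Agent.S24Dec.inertiaDeg_eq_one_of_isAlgClosed (K := K) p hpK Q
  have hft : Q.inertiaDeg A = P.inertiaDeg A * Q.inertiaDeg B := Ideal.inertiaDeg_tower P Q
  have hfB : Q.inertiaDeg B = 1 := by
    rw [hf] at hft
    exact Nat.eq_one_of_mul_eq_one_left hft.symm
  rw [Ideal.ramificationIdxIn_eq_ramificationIdx P Q H', Ideal.inertiaDegIn_eq_inertiaDeg P Q H',
    hfB, mul_one] at h1
  exact h1

theorem ramificationIdx_tower_eq (P : Ideal B) (Q : Ideal C) [Q.LiesOver P] :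
    Q.ramificationIdx A = P.ramificationIdx A * Q.ramificationIdx B :=
  Ideal.ramificationIdx_tower P Q

end Tower


section Ord

variable {K F : Type*} [Field K] [Field F] [Algebra K F]
variable {B : Type*} [CommRing B] [IsDedekindDomain B] [Algebra B F] [IsFractionRing B F]
variable [Algebra K B] [IsScalarTower K B F]

/-- membership in a power of `P` in terms of `ord`. -/
theorem mem_pow_iff_le_ord (P : HeightOneSpectrum B) (b : B) (hb : b ≠ 0) (n : ℕ) :
    b ∈ P.asIdeal ^ n ↔
      (n : ℤ) ≤ (Place.ofHeightOneSpectrum (K := K) (F := F) P).ord (algebraMap B F b) := by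
  rw [← HeightOneSpectrum.intValuation_le_pow_iff_mem,
    Fermat.Agent.S24Bridge.ord_ofHeightOneSpectrum, HeightOneSpectrum.valuation_of_algebraMap]
  have h0 : P.intValuation b ≠ 0 := P.intValuation_ne_zero b hb
  obtain ⟨m, hm⟩ : ∃ m : ℤ, P.intValuation b = WithZero.exp m :=
    ⟨WithZero.log (P.intValuation b), (WithZero.exp_log h0).symm⟩
  rw [hm, WithZero.log_exp, WithZero.exp_le_exp]
  omega

/-- the ramification index of `P` over a principal prime `(a)` is `ord_P a`. -/
theorem ramificationIdx_eq_ord {A : Type*} [CommRing A] [Algebra A B]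
    (P : HeightOneSpectrum B) (a : A) [P.asIdeal.LiesOver (Ideal.span {a})]
    (ha : algebraMap A B a ≠ 0) :
    (P.asIdeal.ramificationIdx A : ℤ) =
      (Place.ofHeightOneSpectrum (K := K) (F := F) P).ord (algebraMap B F (algebraMap A B a)) := by
  have hmap : (Ideal.span {a}).map (algebraMap A B) = Ideal.span {algebraMap A B a} := by
    rw [Ideal.map_span, Set.image_singleton]
  have hne : (Ideal.span {a}).map (algebraMap A B) ≠ ⊥ := by
    rw [hmap, Ne, Ideal.span_singleton_eq_bot]
    exact ha
  have := P.isPrime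
  rw [← Ideal.ramificationIdx'_eq_ramificationIdx' (Ideal.span {a}) P.asIdeal hne]
  set m := (Place.ofHeightOneSpectrum (K := K) (F := F) P).ord
    (algebraMap B F (algebraMap A B a)) with hm
  have hmem : algebraMap A B a ∈ P.asIdeal := by
    have h1 : a ∈ P.asIdeal.under A := by
      rw [← Ideal.over_def P.asIdeal (Ideal.span {a})]
      exact Ideal.subset_span rfl
    exact h1
  have hpos : 0 < m :=
    (Fermat.Agent.S24Bridge.mem_asIdeal_iff_ord_pos (K := K) (F := F) P _ ha).mp hmem
  have hspec : (Ideal.span {a}).ramificationIdx' P.asIdeal = m.toNat := by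
    apply Ideal.ramificationIdx'_spec
    · rw [hmap, Ideal.span_singleton_le_iff_mem, mem_pow_iff_le_ord (K := K) (F := F) P _ ha]
      rw [← hm]; omega
    · rw [hmap, Ideal.span_singleton_le_iff_mem, mem_pow_iff_le_ord (K := K) (F := F) P _ ha]
      rw [← hm]; push_cast; omega
  rw [hspec]
  omega

end Ord


section Core

open Fermat.Agent.S24Gal Fermat.Agent.S24Fib

variable {K F L Γ : Type*} [Field K] [IsAlgClosed K] [CharZero K]
    [Field F] [Algebra K F] [Field L] [Algebra K L] [Algebra F L] [IsScalarTower K F L]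
    [Group Γ] [MulSemiringAction Γ L] [SMulCommClass Γ K L]

open Classical in
set_option maxHeartbeats 1000000 in
set_option synthInstance.maxHeartbeats 200000 in
/-- (F2) for `γ = 1`. -/
theorem ramification_eq_card_one
    (t : F) (httr : Transcendental K t)
    (hfin : ∃ Γ' : Subgroup Γ, Γ'.FiniteIndex ∧ ∀ g ∈ Γ', ∀ x : L, g • x = x)
    (ht : ∀ g : Γ, g • algebraMap F L t = algebraMap F L t)
    (hfix : ∀ x : L, (∀ g : Γ, g • x = x) →
      x ∈ IntermediateField.adjoin K {algebraMap F L t})
    (H : Subgroup Γ)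
    (hH : ∀ g : Γ, g ∈ H ↔ ∀ x : F, g • algebraMap F L x = algebraMap F L x)
    (w : Valuation L (WithZero (Multiplicative ℤ))) (s : ℕ) (g : Γ)
    (hwK : ∀ a : K, a ≠ 0 → w (algebraMap K L a) = 1)
    (hs : 0 < s)
    (hw : w (algebraMap F L t) = WithZero.exp (-(s : ℤ)))
    (hg : ∀ x, w (g • x) = w x)
    (hgs : ∀ k : ℤ, (∀ x : L, (g ^ k) • x = x) ↔ (s : ℤ) ∣ k)
    (v : Place K F) (e : ℕ)
    (hve : ∀ x : F, x ≠ 0 → -WithZero.log (w (algebraMap F L x)) = (e : ℤ) * v.ord x) :
    e = ((Finset.range s).filter (fun k => g ^ k ∈ H)).card := by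
  -- groups
  haveI : Finite (imageGroup Γ L) := finite_imageGroup hfin
  have hG : IsGaloisGroup (imageGroup Γ L) K⟮t⟯ L := isGaloisGroup_imageGroup t ht hfix
  have hGF : IsGaloisGroup (fixF Γ L F) F L := IsGaloisGroup.of_isScalarTower _ K⟮t⟯ L F
  haveI : FiniteDimensional K⟮t⟯ L := hG.finiteDimensional
  haveI : FiniteDimensional F L := hGF.finiteDimensional
  haveI : FiniteDimensional K⟮t⟯ F := FiniteDimensional.left K⟮t⟯ F L
  -- rings
  haveI := isDedekindDomain_adjoin httr
  haveI := isDedekindDomain_integralClosure F httr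
  haveI := isDedekindDomain_integralClosure L httr
  haveI := isFractionRing_integralClosure (K := K) F t
  haveI := isFractionRing_integralClosure (K := K) L t
  haveI := finite_integralClosure L httr
  haveI := flat_integralClosure L httr
  -- (I0)
  haveI hcommK : SMulCommClass (imageGroup Γ L) K⟮t⟯ L := hG.commutes
  haveI hcommA : SMulCommClass (imageGroup Γ L) (Algebra.adjoin K {t}) L :=
    ⟨fun σ a x => by
      rw [← IsScalarTower.algebraMap_smul K⟮t⟯ a x, smul_comm,
        IsScalarTower.algebraMap_smul K⟮t⟯ a (σ • x)]⟩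
  -- (I1)
  haveI hI1 : IsGaloisGroup (imageGroup Γ L) (Algebra.adjoin K {t})
      (integralClosure (Algebra.adjoin K {t}) L) :=
    IsGaloisGroup.of_isFractionRing (imageGroup Γ L) (Algebra.adjoin K {t})
      (integralClosure (Algebra.adjoin K {t}) L) K⟮t⟯ L
  -- (I2)
  letI := algebraBFBL (K := K) (L := L) t
  haveI := isScalarTower_A_BF_BL (K := K) (L := L) t
  haveI := isScalarTower_BF_BL_L (K := K) (L := L) t
  haveI := faithfulSMul_BF_BL (K := K) (L := L) t
  haveI : Algebra.IsIntegral (Algebra.adjoin K {t}) (integralClosure (Algebra.adjoin K {t}) L) :=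
    inferInstance
  haveI : Algebra.IsIntegral (integralClosure (Algebra.adjoin K {t}) F)
      (integralClosure (Algebra.adjoin K {t}) L) :=
    Algebra.IsIntegral.tower_top (Algebra.adjoin K {t})
  haveI hI2 : IsGaloisGroup (fixF Γ L F) (integralClosure (Algebra.adjoin K {t}) F)
      (integralClosure (Algebra.adjoin K {t}) L) :=
    IsGaloisGroup.of_isFractionRing (fixF Γ L F) (integralClosure (Algebra.adjoin K {t}) F)
      (integralClosure (Algebra.adjoin K {t}) L) F L
  -- further instances for the upper layer `B_F ⊆ B_L`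
  haveI hfinBF : Module.Finite (integralClosure (Algebra.adjoin K {t}) F)
      (integralClosure (Algebra.adjoin K {t}) L) :=
    Module.Finite.of_restrictScalars_finite (Algebra.adjoin K {t}) _ _
  haveI htfBF : Module.IsTorsionFree (integralClosure (Algebra.adjoin K {t}) F)
      (integralClosure (Algebra.adjoin K {t}) L) := by
    rw [Module.isTorsionFree_iff_algebraMap_injective]
    exact FaithfulSMul.algebraMap_injective _ _
  haveI hflatBF : Module.Flat (integralClosure (Algebra.adjoin K {t}) F)
      (integralClosure (Algebra.adjoin K {t}) L) := inferInstance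
  -- the valuation on `B_L`
  have hwt1 : w (algebraMap F L t) ≤ 1 := by
    rw [hw, ← WithZero.exp_zero, WithZero.exp_le_exp]
    omega
  let w' : Valuation (integralClosure (Algebra.adjoin K {t}) L) (WithZero (Multiplicative ℤ)) :=
    w.comap (algebraMap (integralClosure (Algebra.adjoin K {t}) L) L)
  have hw' : ∀ b, w' b ≤ 1 := fun b =>
    valuation_le_one_of_isIntegral w (valuation_adjoin_le_one w hwK t hwt1) b.2
  have hw't : w' (algebraMap (Algebra.adjoin K {t}) (integralClosure (Algebra.adjoin K {t}) L)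
      (tA K t)) = WithZero.exp (-(s : ℤ)) := hw
  -- the element of `G` induced by `g`
  have hg' : ∀ b : integralClosure (Algebra.adjoin K {t}) L,
      w' ((toImage Γ L g) • b) = w' b := fun b => hg (b : L)
  have hdvd : ∀ k : ℕ, (toImage Γ L g) ^ k = 1 ↔ s ∣ k := by
    intro k
    have h1 := hgs (k : ℤ)
    rw [Int.natCast_dvd_natCast, zpow_natCast] at h1
    rw [← h1, ← map_pow]
    constructor
    · intro h x
      rw [← toImage_smul (g ^ k) x, h, one_smul]
    · intro h
      apply Subtype.ext
      ext x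
      exact h x
  have hordeq : orderOf (toImage Γ L g) = s :=
    Nat.dvd_antisymm (orderOf_dvd_of_pow_eq_one ((hdvd s).mpr dvd_rfl))
      ((hdvd _).mp (pow_orderOf_eq_one _))
  have hord : s ≤ Nat.card (Subgroup.zpowers (toImage Γ L g)) := by
    rw [Nat.card_zpowers, hordeq]
  -- the decomposition group
  have hstab := Fermat.Agent.S24Dec.stabilizer_centre_eq_zpowers (K := K)
    (G := imageGroup Γ L) w' hw' (tA K t) (isMaximal_span_tA httr) (surjective_mk_span_tA t)
    s hs hw't (toImage Γ L g) hg' hord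
  have hwt2 : w' (algebraMap (Algebra.adjoin K {t}) (integralClosure (Algebra.adjoin K {t}) L)
      (tA K t)) < 1 := by
    rw [hw't, ← WithZero.exp_zero, WithZero.exp_lt_exp]
    omega
  haveI hQover : (Fermat.Agent.S24Dec.centre w' hw').LiesOver (Ideal.span {tA K t}) :=
    Fermat.Agent.S24Dec.centre_liesOver w' hw' (tA K t) (isMaximal_span_tA httr) hwt2
  haveI hpmax : (Ideal.span {tA K t}).IsMaximal := isMaximal_span_tA httr
  have ht0 : t ≠ 0 := fun h => httr (h ▸ isAlgebraic_zero)
  have htL0 : algebraMap (Algebra.adjoin K {t}) (integralClosure (Algebra.adjoin K {t}) L)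
      (tA K t) ≠ 0 := by
    intro h
    rw [h, map_zero] at hw't
    exact WithZero.coe_ne_zero hw't.symm
  have hQne : Fermat.Agent.S24Dec.centre w' hw' ≠ ⊥ := by
    intro h
    have hmem : algebraMap (Algebra.adjoin K {t}) (integralClosure (Algebra.adjoin K {t}) L)
        (tA K t) ∈ Fermat.Agent.S24Dec.centre w' hw' := hwt2
    rw [h] at hmem
    exact htL0 hmem
  haveI hQmax : (Fermat.Agent.S24Dec.centre w' hw').IsMaximal :=
    Ideal.IsPrime.isMaximal inferInstance hQne
  -- the place `v` lies above `t = 0`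
  have hvt : (s : ℤ) = (e : ℤ) * v.ord t := by
    have h := hve t ht0
    rw [hw, WithZero.log_exp] at h
    simpa using h
  have hspos : (0 : ℤ) < (s : ℤ) := by exact_mod_cast hs
  have hvpos : 0 < v.ord t := by
    by_contra hcon
    rw [not_lt] at hcon
    have : (e : ℤ) * v.ord t ≤ 0 := mul_nonpos_of_nonneg_of_nonpos (by positivity) hcon
    omega
  -- the prime `P` of `B_F` attached to `v`
  have htv : t ∈ v.toValuationSubring := Fermat.Agent.S24Res.mem_of_ord_nonneg v hvpos.le
  have hA := algebraMap_adjoin_mem v htv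
  have hB : ∀ b : integralClosure (Algebra.adjoin K {t}) F,
      algebraMap (integralClosure (Algebra.adjoin K {t}) F) F b ∈ v.toValuationSubring := fun b =>
    Fermat.Agent.S24Bridge.mem_of_isIntegral v hA b.2
  obtain ⟨P, hP⟩ := Fermat.Agent.S24Bridge.exists_eq_ofHeightOneSpectrum v hB
  haveI hPprime := P.isPrime
  haveI hPmax : P.asIdeal.IsMaximal := P.isMaximal
  -- `Q` lies over `P`
  haveI hQP : (Fermat.Agent.S24Dec.centre w' hw').LiesOver P.asIdeal := by
    constructor
    ext b
    rw [Ideal.mem_comap, Fermat.Agent.S24Dec.mem_centre]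
    rcases eq_or_ne b 0 with rfl | hb
    · simp
    rw [Fermat.Agent.S24Bridge.mem_asIdeal_iff_ord_pos (K := K) (F := F) P b hb, ← hP]
    have hbF : algebraMap (integralClosure (Algebra.adjoin K {t}) F) F b ≠ 0 := by
      intro h
      exact hb ((IsFractionRing.injective _ F) (by rw [h, map_zero]))
    have h := hve _ hbF
    have hwb : w' (algebraMap (integralClosure (Algebra.adjoin K {t}) F)
        (integralClosure (Algebra.adjoin K {t}) L) b) =
        w (algebraMap F L (algebraMap (integralClosure (Algebra.adjoin K {t}) F) F b)) := rfl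
    rw [hwb]
    have hne : w (algebraMap F L (algebraMap (integralClosure (Algebra.adjoin K {t}) F) F b)) ≠ 0 := by
      rw [Ne, map_eq_zero, map_eq_zero]
      exact hbF
    obtain ⟨m, hm⟩ : ∃ m : ℤ,
        w (algebraMap F L (algebraMap (integralClosure (Algebra.adjoin K {t}) F) F b)) =
          WithZero.exp m := ⟨_, (WithZero.exp_log hne).symm⟩
    rw [hm, WithZero.log_exp] at h
    rw [hm, ← WithZero.exp_zero, WithZero.exp_lt_exp]
    have hepos : (0 : ℤ) < (e : ℤ) := by
      rcases Nat.eq_zero_or_pos e with h0 | h0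
      · rw [h0] at hvt; simp at hvt; omega
      · exact_mod_cast h0
    constructor
    · intro hpos
      have : 0 < (e : ℤ) * v.ord (algebraMap (integralClosure (Algebra.adjoin K {t}) F) F b) :=
        mul_pos hepos hpos
      omega
    · intro hlt
      by_contra hcon
      rw [not_lt] at hcon
      have : (e : ℤ) * v.ord (algebraMap (integralClosure (Algebra.adjoin K {t}) F) F b) ≤ 0 :=
        mul_nonpos_of_nonneg_of_nonpos hepos.le hcon
      omega
  haveI hPp : P.asIdeal.LiesOver (Ideal.span {tA K t}) :=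
    Ideal.LiesOver.tower_bot (Fermat.Agent.S24Dec.centre w' hw') P.asIdeal (Ideal.span {tA K t})
  -- the three ramification indices
  have h1 : Nat.card (MulAction.stabilizer (imageGroup Γ L) (Fermat.Agent.S24Dec.centre w' hw')) =
      (Fermat.Agent.S24Dec.centre w' hw').ramificationIdx (Algebra.adjoin K {t}) :=
    card_stabilizer_eq_ramificationIdx (K := K) (Ideal.span {tA K t}) (surjective_mk_span_tA t) _
  have h2 : Nat.card (MulAction.stabilizer (fixF Γ L F) (Fermat.Agent.S24Dec.centre w' hw')) =
      (Fermat.Agent.S24Dec.centre w' hw').ramificationIdx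
        (integralClosure (Algebra.adjoin K {t}) F) :=
    card_stabilizer_subgroup_eq_ramificationIdx (K := K) (A := Algebra.adjoin K {t})
      (fixF Γ L F) (Ideal.span {tA K t}) (surjective_mk_span_tA t) P.asIdeal _
  have h3 := ramificationIdx_tower_eq (A := Algebra.adjoin K {t}) P.asIdeal
    (Fermat.Agent.S24Dec.centre w' hw')
  have htB0 : algebraMap (Algebra.adjoin K {t}) (integralClosure (Algebra.adjoin K {t}) F)
      (tA K t) ≠ 0 := by
    intro h
    apply ht0
    have h' := congrArg (algebraMap (integralClosure (Algebra.adjoin K {t}) F) F) h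
    rw [map_zero] at h'
    exact h'
  have h4 := ramificationIdx_eq_ord (K := K) (F := F) P (tA K t) htB0
  rw [← hP] at h4
  have htB : algebraMap (integralClosure (Algebra.adjoin K {t}) F) F
      (algebraMap (Algebra.adjoin K {t}) (integralClosure (Algebra.adjoin K {t}) F) (tA K t))
        = t := rfl
  rw [htB] at h4
  -- the count
  have h5 : Nat.card (MulAction.stabilizer (fixF Γ L F) (Fermat.Agent.S24Dec.centre w' hw')) =
      ((Finset.range s).filter (fun k => g ^ k ∈ H)).card := by
    rw [stabilizer_subgroup_eq, hstab, card_zpowers_subgroupOf (toImage Γ L g) s hs hordeq]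
    congr 1
    ext k
    simp only [Finset.mem_filter, Finset.mem_range]
    rw [← map_pow, ← Subgroup.mem_comap, comap_fixF H hH]
  have h6 : Nat.card (MulAction.stabilizer (imageGroup Γ L) (Fermat.Agent.S24Dec.centre w' hw'))
      = s := by
    rw [hstab, Nat.card_zpowers, hordeq]
  -- arithmetic
  rw [h6] at h1
  rw [← h5, h2]
  have h7 : (s : ℤ) = (P.asIdeal.ramificationIdx (Algebra.adjoin K {t}) : ℤ) *
      ((Fermat.Agent.S24Dec.centre w' hw').ramificationIdx
        (integralClosure (Algebra.adjoin K {t}) F) : ℤ) := by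
    rw [h1, h3]; push_cast; rfl
  rw [h4, hvt, mul_comm] at h7
  have h8 := mul_left_cancel₀ hvpos.ne' h7
  exact_mod_cast h8

theorem conj_inv_pow_eq {G : Type*} [Group G] (γ g : G) (k : ℕ) :
    (γ⁻¹ * g * γ) ^ k = γ⁻¹ * g ^ k * γ := by
  have h := conj_pow (a := γ⁻¹) (b := g) (i := k)
  rw [inv_inv] at h
  exact h

theorem conj_inv_zpow_eq {G : Type*} [Group G] (γ g : G) (k : ℤ) :
    (γ⁻¹ * g * γ) ^ k = γ⁻¹ * g ^ k * γ := by
  have h := conj_zpow (a := γ⁻¹) (b := g) (i := k)
  rw [inv_inv] at h
  exact h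

open Classical in
/-- (F2) The factor `e` is the number of `k mod s` with `γ⁻¹ g^k γ ∈ H`
(statement = `Fermat.Agent.F3Places.ramification_eq_card` of `PlacesAbstract.lean`). -/
theorem ramification_eq_card
    (t : F) (httr : Transcendental K t)
    (hfin : ∃ Γ' : Subgroup Γ, Γ'.FiniteIndex ∧ ∀ g ∈ Γ', ∀ x : L, g • x = x)
    (ht : ∀ g : Γ, g • algebraMap F L t = algebraMap F L t)
    (hfix : ∀ x : L, (∀ g : Γ, g • x = x) →
      x ∈ IntermediateField.adjoin K {algebraMap F L t})
    (H : Subgroup Γ)
    (hH : ∀ g : Γ, g ∈ H ↔ ∀ x : F, g • algebraMap F L x = algebraMap F L x)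
    (w : Valuation L (WithZero (Multiplicative ℤ))) (s : ℕ) (g : Γ)
    (hwK : ∀ a : K, a ≠ 0 → w (algebraMap K L a) = 1)
    (hs : 0 < s)
    (hw : w (algebraMap F L t) = WithZero.exp (-(s : ℤ)))
    (hg : ∀ x, w (g • x) = w x)
    (hgs : ∀ k : ℤ, (∀ x : L, (g ^ k) • x = x) ↔ (s : ℤ) ∣ k)
    (v : Place K F) (γ : Γ) (e : ℕ)
    (hve : ∀ x : F, x ≠ 0 → -WithZero.log (w (γ • algebraMap F L x)) = (e : ℤ) * v.ord x) :
    e = ((Finset.range s).filter (fun k => γ⁻¹ * g ^ k * γ ∈ H)).card := by
  let wγ : Valuation L (WithZero (Multiplicative ℤ)) :=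
    w.comap (MulSemiringAction.toRingHom Γ L γ)
  have hwγ : ∀ x : L, wγ x = w (γ • x) := fun _ => rfl
  have h := ramification_eq_card_one (K := K) (F := F) (L := L) (Γ := Γ) t httr hfin ht hfix H hH
    wγ s (γ⁻¹ * g * γ)
    (fun a ha => by rw [hwγ, smul_algebraMap]; exact hwK a ha)
    hs
    (by rw [hwγ, ht γ]; exact hw)
    (fun x => by
      rw [hwγ, hwγ, ← mul_smul, mul_assoc, mul_inv_cancel_left, mul_smul]
      exact hg _)
    (fun k => by
      rw [← hgs k, conj_inv_zpow_eq]
      constructor
      · intro h y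
        have h1 := h (γ⁻¹ • y)
        rw [← mul_smul, mul_inv_cancel_right, mul_smul] at h1
        exact smul_left_cancel _ h1
      · intro h x
        rw [mul_smul, mul_smul, h, inv_smul_smul])
    v e (fun x hx => by rw [hwγ]; exact hve x hx)
  rw [h]
  congr 1
  apply Finset.filter_congr
  intro k _
  rw [conj_inv_pow_eq]

end Core

end Fermat.Agent.F3Ram
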