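/-
Cluster A / F3-I2, piece (D2), ABSTRACT form (helper84).

Setting = the "Galois datum" of S24 (`Fermat/Agent/S24/Glue.lean`): `K` algebraically closed of
characteristic `0`, `F / K` a function field, `L ⊇ F` a field on which `Γ` acts through a finite
quotient with invariants `K(t)`, `H` = pointwise stabiliser of `F`, and ONE integer valued
valuation `w` of `L` above the point `t = 0`, preserved by `g`, with `w t = exp (-s)` and the image
of `⟨g⟩` in `Aut L` of order `s`.

(V2) a valuation of `F` that is `≤ 1` on the valuation ring of a place `v` is `exp (- e ord_v)`.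
(F1) every place `v` of `F` above `t = 0` is induced by `w ∘ γ` for some `γ : Γ`.
(F2) the factor `e` is the number of `k mod s` with `γ⁻¹ g^k γ ∈ H`
     (= order of the image in `Aut L` of the stabiliser in `H` of the point `γ⁻¹ τ₀`).
(G)  every place of `F` lies above `j = c` for some `c : K`, or above `j = ∞`.
The instantiation for the function field of `X₀(N)` (over `ℚ̄`: S24; over `ℂ`: helper46's port)
turns this into: "places = points of `Γ₀(N) \ ℍ*`, `e_τ · ord_v = analytic order at `τ`".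
-/
import Mathlib
import Fermat.Prelude.Def_AlgebraicCurve_CanonicalDivisor
import Fermat.Agent.S24.ZeroPlaces
import Fermat.Agent.S24.Residue
import Fermat.Agent.F3.Dict.PlaceVal
import Fermat.Agent.F3.Dict.PlacesFibre
import Fermat.Agent.F3.Dict.PlacesGlobal
import Fermat.Agent.F3.Dict.Ramification

set_option autoImplicit false

open AlgebraicCurve IntermediateField

namespace Fermat.Agent.F3Places

/-- (V2) A `ℤ`-valued valuation `u` of `F` which is `≤ 1` on the valuation ring of the place `v`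
and not trivial is `exp (- e · ord_v)` for a positive integer `e`. -/
theorem exists_mul_ord_eq_of_valuation {K F : Type*} [Field K] [Field F] [Algebra K F]
    (v : Place K F) (u : Valuation F (WithZero (Multiplicative ℤ)))
    (hle : ∀ x ∈ v.toValuationSubring, u x ≤ 1) (hnt : ∃ x : F, x ≠ 0 ∧ u x ≠ 1) :
    ∃ e : ℕ, 0 < e ∧ ∀ x : F, x ≠ 0 → -WithZero.log (u x) = (e : ℤ) * v.ord x :=
  exists_mul_ord_eq_of_valuation' v u hle hnt

variable {K F L Γ : Type*} [Field K] [IsAlgClosed K] [CharZero K]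
    [Field F] [Algebra K F] [Field L] [Algebra K L] [Algebra F L] [IsScalarTower K F L]
    [Group Γ] [MulSemiringAction Γ L] [SMulCommClass Γ K L]

/-- (F1) Every place of `F` above `t = 0` is induced by a `Γ`-translate of `w`. -/
theorem exists_smul_le_one_of_place
    (t : F) (httr : Transcendental K t)
    (hfin : ∃ Γ' : Subgroup Γ, Γ'.FiniteIndex ∧ ∀ g ∈ Γ', ∀ x : L, g • x = x)
    (ht : ∀ g : Γ, g • algebraMap F L t = algebraMap F L t)
    (hfix : ∀ x : L, (∀ g : Γ, g • x = x) →
      x ∈ IntermediateField.adjoin K {algebraMap F L t})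
    (w : Valuation L (WithZero (Multiplicative ℤ))) (s : ℕ)
    (hwK : ∀ a : K, a ≠ 0 → w (algebraMap K L a) = 1)
    (hs : 0 < s)
    (hw : w (algebraMap F L t) = WithZero.exp (-(s : ℤ)))
    (v : Place K F) (hv : 0 < v.ord t) :
    ∃ γ : Γ, ∀ x ∈ v.toValuationSubring, w (γ • algebraMap F L x) ≤ 1 :=
  exists_smul_le_one_of_place' t httr hfin ht hfix w s hwK hs hw v hv

/-- (F1) + (V2): every place of `F` above `t = 0` is `x ↦ w (γ • x)` up to a factor `e`. -/
theorem exists_smul_ord_eq_of_place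
    (t : F) (httr : Transcendental K t)
    (hfin : ∃ Γ' : Subgroup Γ, Γ'.FiniteIndex ∧ ∀ g ∈ Γ', ∀ x : L, g • x = x)
    (ht : ∀ g : Γ, g • algebraMap F L t = algebraMap F L t)
    (hfix : ∀ x : L, (∀ g : Γ, g • x = x) →
      x ∈ IntermediateField.adjoin K {algebraMap F L t})
    (w : Valuation L (WithZero (Multiplicative ℤ))) (s : ℕ)
    (hwK : ∀ a : K, a ≠ 0 → w (algebraMap K L a) = 1)
    (hs : 0 < s)
    (hw : w (algebraMap F L t) = WithZero.exp (-(s : ℤ)))
    (v : Place K F) (hv : 0 < v.ord t) :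
    ∃ (γ : Γ) (e : ℕ), 0 < e ∧
      ∀ x : F, x ≠ 0 → -WithZero.log (w (γ • algebraMap F L x)) = (e : ℤ) * v.ord x :=
  exists_smul_ord_eq_of_place' t httr hfin ht hfix w s hwK hs hw v hv

open Classical in
/-- (F2) The factor `e` is the number of `k mod s` with `γ⁻¹ g^k γ ∈ H`. -/
theorem ramification_eq_card
    (t : F) (httr : Transcendental K t)
    (hfin : ∃ Γ' : Subgroup Γ, Γ'.FiniteIndex ∧ ∀ g ∈ Γ', ∀ x : L, g • x = x)
    (ht : ∀ g : Γ, g • algebraMap F L t = algebraMap F L t)
    (hfix : ∀ x : L, (∀ g : Γ, g • x = x) →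
      x ∈ IntermediateField.adjoin K {algebraMap F L t})
    (H : Subgroup Γ)
    (hH : ∀ g : Γ, g ∈ H ↔ ∀ x : F, g • algebraMap F L x = algebraMap F L x)
    (w : Valuation L (WithZero (Multiplicative ℤ))) (s : ℕ) (g : Γ)
    (hwK : ∀ a : K, a ≠ 0 → w (algebraMap K L a) = 1)
    (hs : 0 < s)
    (hw : w (algebraMap F L t) = WithZero.exp (-(s : ℤ)))
    (hg : ∀ x, w (g • x) = w x)
    (hgs : ∀ k : ℤ, (∀ x : L, (g ^ k) • x = x) ↔ (s : ℤ) ∣ k)
    (v : Place K F) (γ : Γ) (e : ℕ)
    (hve : ∀ x : F, x ≠ 0 → -WithZero.log (w (γ • algebraMap F L x)) = (e : ℤ) * v.ord x) :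
    e = ((Finset.range s).filter (fun k => γ⁻¹ * g ^ k * γ ∈ H)).card :=
  Fermat.Agent.F3Ram.ramification_eq_card t httr hfin ht hfix H hH w s g hwK hs hw hg hgs v γ e hve

/-- (G) Every place of `F` comes from a point of the `j`-line: the Galois datum of
`Fermat.Agent.S24Glue.degree_canonical_of_galois_datum'`, conclusion = the dictionary. -/
theorem exists_point_of_place
    (j : F) (hjtr : Transcendental K j)
    (hfin : ∃ Γ' : Subgroup Γ, Γ'.FiniteIndex ∧ ∀ g ∈ Γ', ∀ x : L, g • x = x)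
    (hj : ∀ g : Γ, g • algebraMap F L j = algebraMap F L j)
    (hfix : ∀ x : L, (∀ g : Γ, g • x = x) →
      x ∈ IntermediateField.adjoin K {algebraMap F L j})
    (w : K → Valuation L (WithZero (Multiplicative ℤ))) (s : K → ℕ)
    (hwK : ∀ c (a : K), a ≠ 0 → w c (algebraMap K L a) = 1)
    (hs : ∀ c, 0 < s c)
    (hw : ∀ c, w c (algebraMap F L (j - algebraMap K F c)) = WithZero.exp (-(s c : ℤ)))
    (winf : Valuation L (WithZero (Multiplicative ℤ))) (sinf : ℕ)
    (hwinfK : ∀ a : K, a ≠ 0 → winf (algebraMap K L a) = 1)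
    (hsinf : 0 < sinf)
    (hwinf : winf (algebraMap F L j) = WithZero.exp (sinf : ℤ))
    (v : Place K F) :
    (∃ (c : K) (γ : Γ) (e : ℕ), 0 < v.ord (j - algebraMap K F c) ∧ 0 < e ∧
      ∀ x : F, x ≠ 0 → -WithZero.log (w c (γ • algebraMap F L x)) = (e : ℤ) * v.ord x) ∨
    (∃ (γ : Γ) (e : ℕ), v.ord j < 0 ∧ 0 < e ∧
      ∀ x : F, x ≠ 0 → -WithZero.log (winf (γ • algebraMap F L x)) = (e : ℤ) * v.ord x) :=
  exists_point_of_place' j hjtr hfin hj hfix w s hwK hs hw winf sinf hwinfK hsinf hwinf v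

end Fermat.Agent.F3Places
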