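/-
Cluster A / F3-I2, piece (D2): (F1') conversely to (F1), every `Γ`-translate of the valuation `w`
of the Galois closure induces a place of `F` above `t = 0` (helper84).
Same setting and the same ring tower `A = K[t] ⊆ B_F ⊆ B_L` as `S24/ZeroPlaces.lean`.
-/
import Mathlib
import Fermat.Prelude.Def_AlgebraicCurve_CanonicalDivisor
import Fermat.Agent.S24.ZeroPlaces
import Fermat.Agent.S24.Residue
import Fermat.Agent.F3.Dict.PlaceVal
import Fermat.Agent.F3.Dict.PlacesGlobal

set_option autoImplicit false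
set_option linter.style.haveILetI false
set_option linter.unusedSectionVars false

noncomputable section
open IntermediateField Polynomial AlgebraicCurve IsDedekindDomain
open scoped IntermediateField.algebraAdjoinAdjoin Pointwise

namespace Fermat.Agent.F3Places
open Fermat.Agent.S24Gal Fermat.Agent.S24Fib

variable {K F L Γ : Type*} [Field K] [IsAlgClosed K] [CharZero K]
    [Field F] [Algebra K F] [Field L] [Algebra K L] [Algebra F L] [IsScalarTower K F L]
    [Group Γ] [MulSemiringAction Γ L] [SMulCommClass Γ K L]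

set_option maxHeartbeats 1000000 in
set_option synthInstance.maxHeartbeats 400000 in
/-- (F1') Every `Γ`-translate of `w` induces a place of `F` above `t = 0`. -/
theorem exists_place_of_smul
    (t : F) (httr : Transcendental K t)
    (hfin : ∃ Γ' : Subgroup Γ, Γ'.FiniteIndex ∧ ∀ g ∈ Γ', ∀ x : L, g • x = x)
    (ht : ∀ g : Γ, g • algebraMap F L t = algebraMap F L t)
    (hfix : ∀ x : L, (∀ g : Γ, g • x = x) →
      x ∈ IntermediateField.adjoin K {algebraMap F L t})
    (w : Valuation L (WithZero (Multiplicative ℤ))) (s : ℕ)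
    (hwK : ∀ a : K, a ≠ 0 → w (algebraMap K L a) = 1)
    (hs : 0 < s)
    (hw : w (algebraMap F L t) = WithZero.exp (-(s : ℤ)))
    (γ : Γ) :
    ∃ v : Place K F, 0 < v.ord t ∧ ∀ x ∈ v.toValuationSubring, w (γ • algebraMap F L x) ≤ 1 := by
  -- groups
  haveI : Finite (imageGroup Γ L) := finite_imageGroup hfin
  have hG : IsGaloisGroup (imageGroup Γ L) K⟮t⟯ L := isGaloisGroup_imageGroup t ht hfix
  have hGF : IsGaloisGroup (fixF Γ L F) F L := IsGaloisGroup.of_isScalarTower _ K⟮t⟯ L F
  haveI : FiniteDimensional K⟮t⟯ L := hG.finiteDimensional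
  haveI : FiniteDimensional F L := hGF.finiteDimensional
  haveI : FiniteDimensional K⟮t⟯ F := FiniteDimensional.left K⟮t⟯ F L
  -- rings
  haveI := isDedekindDomain_adjoin httr
  haveI := isDedekindDomain_integralClosure F httr
  haveI := isDedekindDomain_integralClosure L httr
  haveI := isFractionRing_integralClosure (K := K) F t
  haveI := isFractionRing_integralClosure (K := K) L t
  haveI := finite_integralClosure L httr
  haveI := flat_integralClosure L httr
  haveI hcommK : SMulCommClass (imageGroup Γ L) K⟮t⟯ L := hG.commutes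
  haveI hcommA : SMulCommClass (imageGroup Γ L) (Algebra.adjoin K {t}) L :=
    ⟨fun σ a x => by
      rw [← IsScalarTower.algebraMap_smul K⟮t⟯ a x, smul_comm,
        IsScalarTower.algebraMap_smul K⟮t⟯ a (σ • x)]⟩
  haveI hI1 : IsGaloisGroup (imageGroup Γ L) (Algebra.adjoin K {t})
      (integralClosure (Algebra.adjoin K {t}) L) :=
    IsGaloisGroup.of_isFractionRing (imageGroup Γ L) (Algebra.adjoin K {t})
      (integralClosure (Algebra.adjoin K {t}) L) K⟮t⟯ L
  letI := algebraBFBL (K := K) (L := L) t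
  haveI := isScalarTower_A_BF_BL (K := K) (L := L) t
  haveI := isScalarTower_BF_BL_L (K := K) (L := L) t
  haveI := faithfulSMul_BF_BL (K := K) (L := L) t
  haveI : Algebra.IsIntegral (Algebra.adjoin K {t}) (integralClosure (Algebra.adjoin K {t}) L) :=
    inferInstance
  haveI : Algebra.IsIntegral (integralClosure (Algebra.adjoin K {t}) F)
      (integralClosure (Algebra.adjoin K {t}) L) :=
    Algebra.IsIntegral.tower_top (Algebra.adjoin K {t})
  haveI hI2 : IsGaloisGroup (fixF Γ L F) (integralClosure (Algebra.adjoin K {t}) F)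
      (integralClosure (Algebra.adjoin K {t}) L) :=
    IsGaloisGroup.of_isFractionRing (fixF Γ L F) (integralClosure (Algebra.adjoin K {t}) F)
      (integralClosure (Algebra.adjoin K {t}) L) F L
  -- the valuation on `B_L`
  have hwt1 : w (algebraMap F L t) ≤ 1 := by
    rw [hw, ← WithZero.exp_zero, WithZero.exp_le_exp]
    omega
  let w' : Valuation (integralClosure (Algebra.adjoin K {t}) L) (WithZero (Multiplicative ℤ)) :=
    w.comap (algebraMap (integralClosure (Algebra.adjoin K {t}) L) L)
  have hw' : ∀ b, w' b ≤ 1 := fun b =>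
    valuation_le_one_of_isIntegral w (valuation_adjoin_le_one w hwK t hwt1) b.2
  have hw't : w' (algebraMap (Algebra.adjoin K {t}) (integralClosure (Algebra.adjoin K {t}) L)
      (tA K t)) = WithZero.exp (-(s : ℤ)) := hw
  have hwt2 : w' (algebraMap (Algebra.adjoin K {t}) (integralClosure (Algebra.adjoin K {t}) L)
      (tA K t)) < 1 := by
    rw [hw't, ← WithZero.exp_zero, WithZero.exp_lt_exp]
    omega
  haveI hQover : (Fermat.Agent.S24Dec.centre w' hw').LiesOver (Ideal.span {tA K t}) :=
    Fermat.Agent.S24Dec.centre_liesOver w' hw' (tA K t) (isMaximal_span_tA httr) hwt2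
  -- the prime of `B_F` below `γ⁻¹ • Q₀`
  set Pp := Fermat.Agent.S24Orb.belowPrime (B := integralClosure (Algebra.adjoin K {t}) F)
    (G := imageGroup Γ L) (Ideal.span {tA K t}) (Fermat.Agent.S24Dec.centre w' hw')
    (toImage Γ L γ) with hPp
  haveI hPprime : Pp.1.IsPrime := Pp.2.1
  haveI hPover : Pp.1.LiesOver (Ideal.span {tA K t}) := Pp.2.2
  obtain ⟨hne, hpos⟩ := exists_place_of_primesOver httr Pp.1
  have hPw : ∀ b : integralClosure (Algebra.adjoin K {t}) F,
      b ∈ Pp.1 ↔ w (γ • algebraMap F L (b : F)) < 1 := by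
    intro b
    show b ∈ ((toImage Γ L γ)⁻¹ • Fermat.Agent.S24Dec.centre w' hw').under
      (integralClosure (Algebra.adjoin K {t}) F) ↔ _
    rw [Ideal.under_def, Ideal.mem_comap, Ideal.mem_inv_pointwise_smul_iff,
      Fermat.Agent.S24Dec.mem_centre]
    rfl
  have hBw : ∀ b : integralClosure (Algebra.adjoin K {t}) F,
      w (γ • algebraMap F L (b : F)) ≤ 1 := by
    intro b
    exact hw' ((toImage Γ L γ) • (algebraMap (integralClosure (Algebra.adjoin K {t}) F)
      (integralClosure (Algebra.adjoin K {t}) L) b))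
  refine ⟨_, hpos, fun x hx => ?_⟩
  obtain ⟨b, s', hs', rfl⟩ := Fermat.Agent.S24Bridge.exists_div_of_mem _ hx
  have h1 : w (γ • algebraMap F L (s' : F)) = 1 := by
    refine le_antisymm (hBw s') ?_
    by_contra hlt
    rw [not_le] at hlt
    exact hs' ((hPw s').mpr hlt)
  rw [map_div₀, smul_div₀', map_div₀]
  show w (γ • algebraMap F L (b : F)) / w (γ • algebraMap F L (s' : F)) ≤ 1
  rw [h1, div_one]
  exact hBw b

/-- (F1') + (V2): every `Γ`-translate of `w` is `exp (- e ord_v)` on `F` for a place `v` of `F`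
above `t = 0`. -/
theorem exists_place_ord_eq_of_smul
    (t : F) (httr : Transcendental K t)
    (hfin : ∃ Γ' : Subgroup Γ, Γ'.FiniteIndex ∧ ∀ g ∈ Γ', ∀ x : L, g • x = x)
    (ht : ∀ g : Γ, g • algebraMap F L t = algebraMap F L t)
    (hfix : ∀ x : L, (∀ g : Γ, g • x = x) →
      x ∈ IntermediateField.adjoin K {algebraMap F L t})
    (w : Valuation L (WithZero (Multiplicative ℤ))) (s : ℕ)
    (hwK : ∀ a : K, a ≠ 0 → w (algebraMap K L a) = 1)
    (hs : 0 < s)
    (hw : w (algebraMap F L t) = WithZero.exp (-(s : ℤ)))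
    (γ : Γ) :
    ∃ (v : Place K F) (e : ℕ), 0 < v.ord t ∧ 0 < e ∧
      ∀ x : F, x ≠ 0 → -WithZero.log (w (γ • algebraMap F L x)) = (e : ℤ) * v.ord x := by
  obtain ⟨v, hv, hγ⟩ := exists_place_of_smul t httr hfin ht hfix w s hwK hs hw γ
  have ht0 : t ≠ 0 := fun h => httr (h ▸ isAlgebraic_zero)
  have hnt : ∃ x : F, x ≠ 0 ∧ pullVal (F := F) w γ x ≠ 1 := by
    refine ⟨t, ht0, ?_⟩
    rw [pullVal_apply, ht, hw, ← WithZero.exp_zero]
    intro h
    have := WithZero.exp_injective h
    omega
  obtain ⟨e, he, h⟩ := exists_mul_ord_eq_of_valuation' v (pullVal (F := F) w γ) hγ hnt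
  exact ⟨v, e, hv, he, h⟩

/-- uniqueness: the place induced by `w ∘ γ` is unique. -/
theorem place_unique_of_smul_le_one
    (w : Valuation L (WithZero (Multiplicative ℤ))) (γ : Γ) (v v' : Place K F)
    (h : ∀ x ∈ v.toValuationSubring, w (γ • algebraMap F L x) ≤ 1)
    (h' : ∀ x ∈ v'.toValuationSubring, w (γ • algebraMap F L x) ≤ 1)
    (hnt : ∃ x : F, x ≠ 0 ∧ w (γ • algebraMap F L x) ≠ 1) : v = v' := by
  obtain ⟨e, he, hv⟩ := exists_mul_ord_eq_of_valuation' v (pullVal (F := F) w γ) h hnt
  obtain ⟨e', he', hv'⟩ := exists_mul_ord_eq_of_valuation' v' (pullVal (F := F) w γ) h' hnt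
  apply Place.ext
  ext x
  rcases eq_or_ne x 0 with rfl | hx
  · simp
  rw [Fermat.Agent.S24Res.mem_iff_ord_nonneg, Fermat.Agent.S24Res.mem_iff_ord_nonneg]
  have h1 := hv x hx
  have h2 := hv' x hx
  have h3 : (e : ℤ) * v.ord x = (e' : ℤ) * v'.ord x := by rw [← h1, ← h2]
  have he0 : (0 : ℤ) < e := by exact_mod_cast he
  have he0' : (0 : ℤ) < e' := by exact_mod_cast he'
  constructor
  · intro hx0
    have : 0 ≤ (e' : ℤ) * v'.ord x := by rw [← h3]; positivity
    exact nonneg_of_mul_nonneg_right this he0'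
  · intro hx0
    have : 0 ≤ (e : ℤ) * v.ord x := by rw [h3]; positivity
    exact nonneg_of_mul_nonneg_right this he0

end Fermat.Agent.F3Places
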