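/-
Cluster A / F3-I2, piece (D2), abstract form for an embedding `φ : F →ₐ[K] L`
(no `Algebra F L` instance: on the concrete types instance search times out) (helper84).
  `exists_point_of_place_hom` : places → points, with the index `e` and the width `h`;
  `exists_place_of_point_hom` : points → places.
-/
import Mathlib
import Fermat.Prelude.Def_AlgebraicCurve_CanonicalDivisor
import Fermat.Agent.F3.Dict.PlacesAbstract
import Fermat.Agent.F3.Dict.PlacesConv
import Fermat.Agent.F3.Dict.Width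

set_option autoImplicit false
set_option linter.style.haveILetI false
set_option linter.unusedSectionVars false

noncomputable section
open IntermediateField AlgebraicCurve

namespace Fermat.Agent.F3Places

variable {K F L Γ : Type*} [Field K] [IsAlgClosed K] [CharZero K]
    [Field F] [Algebra K F] [Field L] [Algebra K L]
    [Group Γ] [MulSemiringAction Γ L] [SMulCommClass Γ K L]

/-- one fibre, places → points: a place above `t = 0` is `w ∘ γ ∘ φ` up to the factor `e`, and
`h e = s`, `γ⁻¹ g^h γ ∈ H`. -/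
theorem exists_point_of_place_fibre_hom (φ : F →ₐ[K] L)
    (t : F) (httr : Transcendental K t)
    (hfin : ∃ Γ' : Subgroup Γ, Γ'.FiniteIndex ∧ ∀ g ∈ Γ', ∀ x : L, g • x = x)
    (ht : ∀ g : Γ, g • φ t = φ t)
    (hfix : ∀ x : L, (∀ g : Γ, g • x = x) → x ∈ IntermediateField.adjoin K {φ t})
    (H : Subgroup Γ) (hH : ∀ g : Γ, g ∈ H ↔ ∀ x : F, g • φ x = φ x)
    (w : Valuation L (WithZero (Multiplicative ℤ))) (s : ℕ) (g : Γ)
    (hwK : ∀ a : K, a ≠ 0 → w (algebraMap K L a) = 1)
    (hs : 0 < s)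
    (hw : w (φ t) = WithZero.exp (-(s : ℤ)))
    (hg : ∀ x, w (g • x) = w x)
    (hgs : ∀ k : ℤ, (∀ x : L, (g ^ k) • x = x) ↔ (s : ℤ) ∣ k)
    (v : Place K F) (hv : 0 < v.ord t) :
    ∃ (γ : Γ) (e h : ℕ), 0 < e ∧ 0 < h ∧ h * e = s ∧ γ⁻¹ * g ^ h * γ ∈ H ∧
      ∀ x : F, x ≠ 0 → -WithZero.log (w (γ • φ x)) = (e : ℤ) * v.ord x := by
  classical
  letI : Algebra F L := φ.toRingHom.toAlgebra
  haveI : IsScalarTower K F L := IsScalarTower.of_algebraMap_eq (fun a => (φ.commutes a).symm)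
  have hmap : ∀ x : F, algebraMap F L x = φ x := fun _ => rfl
  obtain ⟨γ, e, he, hve⟩ := exists_smul_ord_eq_of_place' t httr hfin ht hfix w s hwK hs hw v hv
  have hcard := ramification_eq_card t httr hfin ht hfix H hH w s g hwK hs hw hg hgs v γ e hve
  have hgsH : γ⁻¹ * g ^ s * γ ∈ H := by
    rw [hH]
    intro x
    have h1 : ∀ y : L, (g ^ s) • y = y := by
      have := (hgs (s : ℤ)).mpr dvd_rfl
      simpa using this
    rw [mul_smul, mul_smul, h1, inv_smul_smul]
  obtain ⟨h, hh, hhe, hmem⟩ := exists_width H g γ s hs hgsH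
  rw [← hcard] at hhe
  exact ⟨γ, e, h, he, hh, hhe, hmem, hve⟩

/-- one fibre, points → places. -/
theorem exists_place_of_point_fibre_hom (φ : F →ₐ[K] L)
    (t : F) (httr : Transcendental K t)
    (hfin : ∃ Γ' : Subgroup Γ, Γ'.FiniteIndex ∧ ∀ g ∈ Γ', ∀ x : L, g • x = x)
    (ht : ∀ g : Γ, g • φ t = φ t)
    (hfix : ∀ x : L, (∀ g : Γ, g • x = x) → x ∈ IntermediateField.adjoin K {φ t})
    (H : Subgroup Γ) (hH : ∀ g : Γ, g ∈ H ↔ ∀ x : F, g • φ x = φ x)
    (w : Valuation L (WithZero (Multiplicative ℤ))) (s : ℕ) (g : Γ)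
    (hwK : ∀ a : K, a ≠ 0 → w (algebraMap K L a) = 1)
    (hs : 0 < s)
    (hw : w (φ t) = WithZero.exp (-(s : ℤ)))
    (hg : ∀ x, w (g • x) = w x)
    (hgs : ∀ k : ℤ, (∀ x : L, (g ^ k) • x = x) ↔ (s : ℤ) ∣ k)
    (γ : Γ) :
    ∃ (v : Place K F) (e h : ℕ), 0 < v.ord t ∧ 0 < e ∧ 0 < h ∧ h * e = s ∧
      γ⁻¹ * g ^ h * γ ∈ H ∧
      ∀ x : F, x ≠ 0 → -WithZero.log (w (γ • φ x)) = (e : ℤ) * v.ord x := by
  classical
  letI : Algebra F L := φ.toRingHom.toAlgebra
  haveI : IsScalarTower K F L := IsScalarTower.of_algebraMap_eq (fun a => (φ.commutes a).symm)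
  have hmap : ∀ x : F, algebraMap F L x = φ x := fun _ => rfl
  obtain ⟨v, e, hv, he, hve⟩ :=
    exists_place_ord_eq_of_smul t httr hfin ht hfix w s hwK hs hw γ
  have hcard := ramification_eq_card t httr hfin ht hfix H hH w s g hwK hs hw hg hgs v γ e hve
  have hgsH : γ⁻¹ * g ^ s * γ ∈ H := by
    rw [hH]
    intro x
    have h1 : ∀ y : L, (g ^ s) • y = y := by
      have := (hgs (s : ℤ)).mpr dvd_rfl
      simpa using this
    rw [mul_smul, mul_smul, h1, inv_smul_smul]
  obtain ⟨h, hh, hhe, hmem⟩ := exists_width H g γ s hs hgsH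
  rw [← hcard] at hhe
  exact ⟨v, e, h, hv, he, hh, hhe, hmem, hve⟩

/-- constants are fixed by `Γ`. -/
theorem smul_algebraMap_K (g : Γ) (a : K) : g • algebraMap K L a = algebraMap K L a := by
  rw [Algebra.algebraMap_eq_smul_one, smul_comm, smul_one]

/-- the fibre hypotheses for `t = j - c`. -/
theorem fibre_hyps_sub (φ : F →ₐ[K] L) (j : F) (jL : L) (hφj : φ j = jL)
    (hjtr : Transcendental K j) (hj : ∀ g : Γ, g • jL = jL)
    (hfix : ∀ x : L, (∀ g : Γ, g • x = x) → x ∈ IntermediateField.adjoin K {jL}) (c : K) :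
    Transcendental K (j - algebraMap K F c) ∧
    (∀ g : Γ, g • φ (j - algebraMap K F c) = φ (j - algebraMap K F c)) ∧
    (∀ x : L, (∀ g : Γ, g • x = x) →
      x ∈ IntermediateField.adjoin K {φ (j - algebraMap K F c)}) ∧
    φ (j - algebraMap K F c) = jL - algebraMap K L c := by
  have h4 : φ (j - algebraMap K F c) = jL - algebraMap K L c := by
    rw [map_sub, hφj, φ.commutes]
  refine ⟨?_, ?_, ?_, h4⟩
  · intro halg
    apply hjtr
    have := halg.add (isAlgebraic_algebraMap (R := K) (A := F) c)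
    rwa [sub_add_cancel] at this
  · intro g
    rw [h4, smul_sub, hj, smul_algebraMap_K]
  · intro x hx
    have := hfix x hx
    rw [h4]
    have heq : IntermediateField.adjoin K {jL - algebraMap K L c} =
        IntermediateField.adjoin K {jL} := by
      apply le_antisymm
      · rw [adjoin_simple_le_iff]
        exact sub_mem (mem_adjoin_simple_self K jL) (IntermediateField.algebraMap_mem _ c)
      · rw [adjoin_simple_le_iff]
        have h1 : jL - algebraMap K L c ∈ K⟮jL - algebraMap K L c⟯ :=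
          mem_adjoin_simple_self K _
        have h2 := add_mem h1 (IntermediateField.algebraMap_mem K⟮jL - algebraMap K L c⟯ c)
        rwa [sub_add_cancel] at h2
    rw [heq]
    exact this

/-- the fibre hypotheses for `t = j⁻¹`. -/
theorem fibre_hyps_inv (φ : F →ₐ[K] L) (j : F) (jL : L) (hφj : φ j = jL)
    (hjtr : Transcendental K j) (hj : ∀ g : Γ, g • jL = jL)
    (hfix : ∀ x : L, (∀ g : Γ, g • x = x) → x ∈ IntermediateField.adjoin K {jL}) :
    Transcendental K j⁻¹ ∧
    (∀ g : Γ, g • φ j⁻¹ = φ j⁻¹) ∧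
    (∀ x : L, (∀ g : Γ, g • x = x) → x ∈ IntermediateField.adjoin K {φ j⁻¹}) ∧
    φ j⁻¹ = jL⁻¹ := by
  have h4 : φ j⁻¹ = jL⁻¹ := by rw [map_inv₀, hφj]
  refine ⟨fun halg => hjtr (by simpa using halg.inv), ?_, ?_, h4⟩
  · intro g
    rw [h4, smul_inv'', hj]
  · intro x hx
    have := hfix x hx
    rw [h4]
    have heq : IntermediateField.adjoin K {jL⁻¹} = IntermediateField.adjoin K {jL} := by
      apply le_antisymm
      · rw [adjoin_simple_le_iff]
        exact inv_mem (mem_adjoin_simple_self K jL)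
      · rw [adjoin_simple_le_iff]
        have hmem : (jL⁻¹)⁻¹ ∈ K⟮jL⁻¹⟯ := inv_mem (mem_adjoin_simple_self K jL⁻¹)
        rwa [inv_inv] at hmem
    rw [heq]
    exact this

/-- `F` is a function field, hom form. -/
theorem isFunctionFieldOver_of_hom (φ : F →ₐ[K] L) (j : F) (jL : L) (hφj : φ j = jL)
    (hjtr : Transcendental K j)
    (hfin : ∃ Γ' : Subgroup Γ, Γ'.FiniteIndex ∧ ∀ g ∈ Γ', ∀ x : L, g • x = x)
    (hj : ∀ g : Γ, g • jL = jL)
    (hfix : ∀ x : L, (∀ g : Γ, g • x = x) → x ∈ IntermediateField.adjoin K {jL}) :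
    Fermat.Agent.S24Diff.IsFunctionFieldOver K F j := by
  letI : Algebra F L := φ.toRingHom.toAlgebra
  haveI : IsScalarTower K F L := IsScalarTower.of_algebraMap_eq (fun a => (φ.commutes a).symm)
  have hmap : ∀ x : F, algebraMap F L x = φ x := fun _ => rfl
  exact isFunctionFieldOver_of_galois_datum j hjtr hfin (by rw [hmap, hφj]; exact hj)
    (by rw [hmap, hφj]; exact hfix)

/-- every place lies over a point of the `j`-line. -/
theorem exists_ord_pos_or_neg_of_hom (φ : F →ₐ[K] L) (j : F) (jL : L) (hφj : φ j = jL)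
    (hjtr : Transcendental K j)
    (hfin : ∃ Γ' : Subgroup Γ, Γ'.FiniteIndex ∧ ∀ g ∈ Γ', ∀ x : L, g • x = x)
    (hj : ∀ g : Γ, g • jL = jL)
    (hfix : ∀ x : L, (∀ g : Γ, g • x = x) → x ∈ IntermediateField.adjoin K {jL})
    (v : Place K F) :
    (∃ c : K, 0 < v.ord (j - algebraMap K F c)) ∨ 0 < v.ord j⁻¹ := by
  have hff := isFunctionFieldOver_of_hom φ j jL hφj hjtr hfin hj hfix
  have hjK : j ∉ Set.range (algebraMap K F) := by
    rintro ⟨a, rfl⟩
    exact hjtr (isAlgebraic_algebraMap (R := K) (A := F) a)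
  rcases Fermat.Agent.S24Res.exists_ord_sub_pos_or_neg hff v hjK with h | h
  · exact Or.inl h
  · right
    rw [Place.ord_inv]
    omega

end Fermat.Agent.F3Places
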