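/-
Cluster A (F3), Dict (C1c), helper57: the `ℂ`-port of `F3/Dict/ValSmul.lean` against the ported
objects of `F3/DictC` (namespace `Fermat.Agent.F3Dict`):
`F3Dict.valLL M τ (γ • x) = F3Dict.valLL M (γ⁻¹ • τ) x`.
-/
import Mathlib
import Fermat.Agent.F3.DictC.Val

set_option autoImplicit false

noncomputable section

namespace Fermat.Agent.F3Places

open UpperHalfPlane Fermat.Agent.F3Dict
open scoped MatrixGroups Manifold Topology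

/-- one inequality: `ord_{γ⁻¹ τ₀} f ≤ ord_{τ₀} (γ • f)`. -/
theorem ordAtC_inv_smul_le_ordAtC_smul {f : Fun} (hf : IsHol f) (γ : SL(2, ℤ)) (τ₀ : ℍ) :
    ordAt (γ⁻¹ • τ₀) f ≤ ordAt τ₀ (γ • f) := by
  set m : ℂ → ℂ := fun z => ((γ⁻¹ • ofComplex z : ℍ) : ℂ) with hm
  have hm0 : m (τ₀ : ℂ) = ((γ⁻¹ • τ₀ : ℍ) : ℂ) := by
    simp only [hm, ofComplex_apply]
  have hma : AnalyticAt ℂ m (τ₀ : ℂ) := (isHol_coe_sl_smul γ⁻¹).analyticAt τ₀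
  have hcomp : (fun z : ℂ => (γ • f) (ofComplex z)) = (fun z : ℂ => f (ofComplex z)) ∘ m := by
    funext z
    simp only [Function.comp_apply, hm, ofComplex_apply, Fun.sl_smul_apply]
  have hfa : AnalyticAt ℂ (fun z : ℂ => f (ofComplex z)) (m (τ₀ : ℂ)) := by
    rw [hm0]; exact hf.analyticAt (γ⁻¹ • τ₀)
  have key := hfa.analyticOrderAt_comp hma
  rw [hm0] at key
  have hk : 1 ≤ analyticOrderAt (fun z => m z - ((γ⁻¹ • τ₀ : ℍ) : ℂ)) (τ₀ : ℂ) := by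
    rw [Order.one_le_iff_ne_zero]
    have ha : AnalyticAt ℂ (fun z => m z - ((γ⁻¹ • τ₀ : ℍ) : ℂ)) (τ₀ : ℂ) :=
      hma.sub analyticAt_const
    rw [ha.analyticOrderAt_ne_zero, hm0, sub_self]
  rw [ordAt, ordAt, hcomp, key]
  exact le_mul_of_one_le_right zero_le hk

/-- `ord_{τ₀} (γ • f) = ord_{γ⁻¹ τ₀} f` for holomorphic `f`. -/
theorem ordAtC_smul_eq {f : Fun} (hf : IsHol f) (γ : SL(2, ℤ)) (τ₀ : ℍ) :
    ordAt τ₀ (γ • f) = ordAt (γ⁻¹ • τ₀) f := by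
  refine le_antisymm ?_ (ordAtC_inv_smul_le_ordAtC_smul hf γ τ₀)
  have h := ordAtC_inv_smul_le_ordAtC_smul (hf.sl_smul γ) γ⁻¹ (γ⁻¹ • τ₀)
  rwa [inv_inv, smul_inv_smul, inv_smul_smul] at h

theorem valALC_smul_eq (M : ℕ) (γ : SL(2, ℤ)) (τ₀ : ℍ) (f : AL M) :
    valAL M τ₀ (γ • f) = valAL M (γ⁻¹ • τ₀) f := by
  rw [valAL_apply, valAL_apply, AL.coe_smul, ordAtC_smul_eq (isHol_of_mem_AL f.2) γ τ₀]

/-- **(C1)** the valuations `valLL M τ` are permuted by `SL(2,ℤ)`: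
`valLL M τ (γ • x) = valLL M (γ⁻¹ • τ) x`. -/
theorem valLLC_smul_eq (M : ℕ) (γ : SL(2, ℤ)) (τ₀ : ℍ) (x : LL M) :
    valLL M τ₀ (γ • x) = valLL M (γ⁻¹ • τ₀) x := by
  obtain ⟨a, b, hb, rfl⟩ := IsFractionRing.div_surjective (A := AL M) x
  rw [smul_div₀', LL.smul_algebraMap, LL.smul_algebraMap, map_div₀, map_div₀,
    valLL_algebraMap, valLL_algebraMap, valLL_algebraMap, valLL_algebraMap,
    valALC_smul_eq M γ τ₀, valALC_smul_eq M γ τ₀]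

/-- variant: `valLL M (γ • τ) x = valLL M τ (γ⁻¹ • x)`. -/
theorem valLLC_smul_point (M : ℕ) (γ : SL(2, ℤ)) (τ₀ : ℍ) (x : LL M) :
    valLL M (γ • τ₀) x = valLL M τ₀ (γ⁻¹ • x) := by
  rw [valLLC_smul_eq, inv_inv]

end Fermat.Agent.F3Places
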