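/-
Cluster A / F3-I2, piece (D2): the elliptic witness `γ₀ = γ⁻¹ g^h γ` at the point `γ⁻¹ τ`
and its automorphy factor (helper84).
-/
import Mathlib

set_option autoImplicit false

noncomputable section

namespace Fermat.Agent.F3Places

open UpperHalfPlane
open scoped MatrixGroups

/-- the automorphy factor `c τ + d` of `γ : SL(2,ℤ)`, in the form used in `DictInterface`. -/
def cdFactor (γ : SL(2, ℤ)) (τ : ℍ) : ℂ :=
  ((γ 1 0 : ℤ) : ℂ) * (τ : ℂ) + ((γ 1 1 : ℤ) : ℂ)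

theorem cdFactor_eq_denom (γ : SL(2, ℤ)) (τ : ℍ) :
    cdFactor γ τ = denom (γ : GL (Fin 2) ℝ) τ := by
  rw [ModularGroup.denom_apply]
  rfl

theorem cdFactor_ne_zero (γ : SL(2, ℤ)) (τ : ℍ) : cdFactor γ τ ≠ 0 := by
  rw [cdFactor_eq_denom]
  exact denom_ne_zero (γ : GL (Fin 2) ℝ) τ

theorem coe_smul_eq_div (γ : SL(2, ℤ)) (τ : ℍ) :
    ((γ • τ : ℍ) : ℂ) = (((γ 0 0 : ℤ) : ℂ) * (τ : ℂ) + ((γ 0 1 : ℤ) : ℂ)) / cdFactor γ τ := by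
  rw [UpperHalfPlane.coe_specialLinearGroup_apply]
  simp [cdFactor]

theorem cdFactor_mul (γ γ' : SL(2, ℤ)) (τ : ℍ) :
    cdFactor (γ * γ') τ = cdFactor γ (γ' • τ) * cdFactor γ' τ := by
  have hne := cdFactor_ne_zero γ' τ
  have h1 : cdFactor γ (γ' • τ) = ((γ 1 0 : ℤ) : ℂ) * ((γ' • τ : ℍ) : ℂ) + ((γ 1 1 : ℤ) : ℂ) := rfl
  rw [h1, coe_smul_eq_div]
  have h2 : cdFactor (γ * γ') τ =
      (((γ 1 0 * γ' 0 0 + γ 1 1 * γ' 1 0 : ℤ) : ℂ)) * (τ : ℂ) +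
        ((γ 1 0 * γ' 0 1 + γ 1 1 * γ' 1 1 : ℤ) : ℂ) := by
    unfold cdFactor
    rw [Matrix.SpecialLinearGroup.coe_mul, Matrix.mul_apply, Matrix.mul_apply]
    simp [Fin.sum_univ_two]
  rw [h2]
  field_simp
  unfold cdFactor
  push_cast
  ring

theorem cdFactor_one (τ : ℍ) : cdFactor 1 τ = 1 := by
  simp [cdFactor]

theorem cdFactor_pow (g : SL(2, ℤ)) (τ : ℍ) (hg : g • τ = τ) (h : ℕ) :
    cdFactor (g ^ h) τ = cdFactor g τ ^ h := by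
  induction h with
  | zero => simp [cdFactor_one]
  | succ n ih =>
    rw [pow_succ, cdFactor_mul, hg, ih, pow_succ]

theorem pow_smul_eq (g : SL(2, ℤ)) (τ : ℍ) (hg : g • τ = τ) (h : ℕ) : (g ^ h) • τ = τ := by
  induction h with
  | zero => simp
  | succ n ih => rw [pow_succ, mul_smul, hg, ih]

/-- (W) the witness. -/
theorem witness (γ g : SL(2, ℤ)) (τ : ℍ) (h : ℕ) (hg : g • τ = τ) :
    (γ⁻¹ * g ^ h * γ) • (γ⁻¹ • τ) = γ⁻¹ • τ ∧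
    cdFactor (γ⁻¹ * g ^ h * γ) (γ⁻¹ • τ) ^ 2 = (cdFactor g τ ^ 2) ^ h := by
  have hfix : (γ⁻¹ * g ^ h * γ) • (γ⁻¹ • τ) = γ⁻¹ • τ := by
    rw [mul_smul, mul_smul, smul_inv_smul, pow_smul_eq g τ hg]
  refine ⟨hfix, ?_⟩
  have h1 : cdFactor (γ⁻¹ * γ) (γ⁻¹ • τ) = 1 := by
    rw [inv_mul_cancel, cdFactor_one]
  rw [cdFactor_mul, smul_inv_smul] at h1
  have h2 : cdFactor (γ⁻¹ * g ^ h * γ) (γ⁻¹ • τ) =
      cdFactor γ⁻¹ τ * cdFactor g τ ^ h * cdFactor γ (γ⁻¹ • τ) := by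
    rw [cdFactor_mul, cdFactor_mul, smul_inv_smul, pow_smul_eq g τ hg, cdFactor_pow g τ hg]
  rw [h2, ← pow_mul, mul_comm 2 h, pow_mul]
  have h3 : cdFactor γ⁻¹ τ * cdFactor g τ ^ h * cdFactor γ (γ⁻¹ • τ) =
      cdFactor g τ ^ h * (cdFactor γ⁻¹ τ * cdFactor γ (γ⁻¹ • τ)) := by ring
  rw [h3, h1, mul_one]

end Fermat.Agent.F3Places
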