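/-
Cluster A / F3-I2, piece (D2) over `ℂ`: ASSEMBLY (helper84).

`F3I2.DictD2a N`, `F3I2.DictD2b N` (places of `FC N` ↔ points of `Γ₀(N) \ ℍ*`, with charts),
`F3I2.DictHPD N`, `F3I2.DictConst N`, from
* the port of S24's analytic half to `ℂ` (`F3/DictC`, helper46),
* the abstract dictionary (`F3/Dict/Places*.lean`, helper84; `Ramification.lean`, helper24),
* `j`-injectivity (`S20/JInjective.lean`),
* the local points (LD), the ratio bridges (R), (R∞): hypotheses of `dictD2a_of`, `dictD2b_of`.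
-/
import Mathlib
import Fermat.Agent.F3.I2.DictInterface
import Fermat.Agent.F3.DictC.EmbF
import Fermat.Agent.F3.DictC.GlobalDatum
import Fermat.Agent.F3.DictC.InvariantsFinal
import Fermat.Agent.F3.DictC.Periods
import Fermat.Agent.F3.DictC.ValInf
import Fermat.Agent.F3.DictC.LocalDatum
import Fermat.Agent.F3.DictC.GensExp
import Fermat.Agent.F3.Dict.ValSmulC
import Fermat.Agent.F3.Dict.PlacesHom
import Fermat.Agent.F3.Dict.Witness
import Fermat.Agent.F3.Dict.ConstHPD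
import Fermat.Agent.F3.Dict.LocalPoint
import Fermat.Agent.F3.Dict.RatioBridge
import Fermat.Agent.S20.JInjective
import Fermat.Agent.S24.RHCounts

set_option autoImplicit false
set_option linter.style.haveILetI false
set_option linter.unusedSectionVars false

noncomputable section

namespace Fermat.Agent.F3Charts

open UpperHalfPlane CongruenceSubgroup AlgebraicCurve
open scoped MatrixGroups ModularForm
open Fermat.Agent.F3Dict Fermat.Agent.F3Places

/-! ### the concrete datum -/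

/-- the embedding `FC N → LL (2N)`. -/
def phiC (N : ℕ) [NeZero N] : ↥(F3I2.FC N) →ₐ[ℂ] LL (2 * N) :=
  haveI : NeZero (2 * N) := ⟨Nat.mul_ne_zero two_ne_zero (NeZero.ne N)⟩
  EmbFHom.embHom N (2 * N) (Dvd.intro_left 2 rfl)

theorem phiC_jBar (N : ℕ) [NeZero N] : phiC N (jBar N) = jLL (2 * N) :=
  haveI : NeZero (2 * N) := ⟨Nat.mul_ne_zero two_ne_zero (NeZero.ne N)⟩
  EmbFHom.embHom_jq N (2 * N) (Dvd.intro_left 2 rfl) (jBar N) rfl

theorem mem_Gamma0_iff_phiC (N : ℕ) [NeZero N] (γ : SL(2, ℤ)) :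
    γ ∈ Gamma0 N ↔ ∀ x : ↥(F3I2.FC N), γ • phiC N x = phiC N x := by
  haveI : NeZero (2 * N) := ⟨Nat.mul_ne_zero two_ne_zero (NeZero.ne N)⟩
  have hNM : N ∣ 2 * N := Dvd.intro_left 2 rfl
  rw [mem_Gamma0_iff_forall_smul_jd N γ]
  constructor
  · intro h x
    exact EmbFHom.smul_eq_of_mem_genField N (2 * N) hNM γ h (EmbFHom.embHom_mem N (2 * N) hNM x)
  · intro h d hdne hd
    obtain ⟨x, hx⟩ := EmbFHom.exists_embHom_eq N (2 * N) hNM
      (EmbFHom.jdLL_mem_genField N (2 * N) d hNM hd)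
    have h1 := h x
    have hx' : phiC N x = EmbFHom.jdLL (2 * N) d (hd.trans hNM) := hx
    rw [hx'] at h1
    exact (EmbFHom.smul_jdLL_eq_iff (2 * N) d (hd.trans hNM) γ).mp h1

/-- the valuation of `LL M` at the cusp `∞` (order in `u = q^{1/M}`). -/
def winfC (M : ℕ) [NeZero M] : Valuation (LL M) (WithZero (Multiplicative ℤ)) :=
  valInfLL (M := M) (fun _ hf => exists_hasExp_of_mem_gens M hf)

theorem winfC_algebraMap (M : ℕ) [NeZero M] {a : ℂ} (ha : a ≠ 0) :
    winfC M (algebraMap ℂ (LL M) a) = 1 :=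
  valInfLL_algebraMap_Kbar _ ha

theorem winfC_T_smul (M : ℕ) [NeZero M] (x : LL M) :
    winfC M (ModularGroup.T • x) = winfC M x :=
  valInfLL_T_smul _ x

theorem winfC_jLL (M : ℕ) [NeZero M] : winfC M (jLL M) = WithZero.exp (M : ℤ) := by
  have h := hasExp_jd M 1 (one_dvd M)
  have h1 : jd 1 = jFun := by
    ext τ
    show jFun (scale 1 τ) = jFun τ
    congr 1
    ext
    simp
  rw [h1, ModularCurve.qExpand_congr (mul_one M)] at h
  have hj' : HasExp M ((jAL M : AL M) : Fun)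
      (ModularCurve.qExpand Kc M (ModularCurve.jqModC Kc)) := h
  unfold winfC
  rw [jLL, valInfLL_algebraMap, valInfAL_apply, expAL_eq _ hj',
    laurent_valuation_qExpand_jqModC]

/-- the ratio bridge at the cusps: the statement of (R∞). -/
def RatioCusp (N : ℕ) [NeZero N] : Prop :=
  haveI : NeZero (2 * N) := ⟨Nat.mul_ne_zero two_ne_zero (NeZero.ne N)⟩
  ∀ (γ : SL(2, ℤ)) (w : ℤ) (A B : ModularForm (Gamma0 N) w) (x : ↥(F3I2.FC N)), A ≠ 0 →
    F3I2.IsRatio N x A B →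
    -WithZero.log (winfC (2 * N) (γ • phiC N x)) =
      F3I2.ordInf (2 * N) (⇑A ∣[w] γ⁻¹) - F3I2.ordInf (2 * N) (⇑B ∣[w] γ⁻¹)

/-! ### auxiliary facts -/

theorem ne_zero_of_isRatio (N : ℕ) [NeZero N] {w : ℤ} (A B : ModularForm (Gamma0 N) w)
    (x : ↥(F3I2.FC N)) (hA : A ≠ 0) (h : F3I2.IsRatio N x A B) : x ≠ 0 := by
  rintro rfl
  apply hA
  have h2 : F3I2.qLaurent A = 0 := by
    have := h.2
    simpa using this
  have hA1 := Fermat.Agent.F3Ratio.hasExp_mfFun 1 A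
  rw [h2, map_zero] at hA1
  have h0 : HasExp 1 (0 : Fun) 0 := by
    have := HasExp.algebraMap 1 (0 : Kc)
    simpa using this
  have := hA1.fun_unique h0
  exact (Fermat.Agent.F3Ratio.mfFun_eq_zero_iff A).mp this

theorem exists_smul_eq_of_jFun_eq (τ τ' : ℍ) (h : jFun τ = jFun τ') :
    ∃ γ : SL(2, ℤ), γ • τ = τ' := by
  apply Fermat.Agent.S20.exists_smul_eq_of_j_eq
  have h1 : ModularForm.discriminant τ ≠ 0 := ModularForm.discriminant_ne_zero τ
  have h2 : ModularForm.discriminant τ' ≠ 0 := ModularForm.discriminant_ne_zero τ'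
  have h3 : ModularForm.E₄ τ ^ 3 / ModularForm.discriminant τ =
      ModularForm.E₄ τ' ^ 3 / ModularForm.discriminant τ' := h
  field_simp at h3
  linear_combination h3

/-! ### charts -/

set_option maxHeartbeats 1000000 in
set_option synthInstance.maxHeartbeats 400000 in
/-- a chart at the point `γ⁻¹ τc` from the abstract data of one fibre. -/
theorem chart_of_fibre (N : ℕ) [NeZero N] (τc : ℍ) (s : ℕ) (g : SL(2, ℤ))
    (hgτ : g • τc = τc) (hs : 0 < s) (hprim : IsPrimitiveRoot (cdFactor g τc ^ 2) s)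
    (γ : SL(2, ℤ)) (e h : ℕ) (he : 0 < e) (hhe : h * e = s)
    (hmem : γ⁻¹ * g ^ h * γ ∈ Gamma0 N)
    (v : Place ℂ ↥(F3I2.FC N))
    (hve : ∀ x : ↥(F3I2.FC N), x ≠ 0 →
      -WithZero.log (valLL (2 * N) τc (γ • phiC N x)) = (e : ℤ) * v.ord x) :
    F3I2.IsChartAt N v (γ⁻¹ • τc) e := by
  haveI : NeZero (2 * N) := ⟨Nat.mul_ne_zero two_ne_zero (NeZero.ne N)⟩
  obtain ⟨hw1, hw2⟩ := witness γ g τc h hgτ
  refine ⟨he, ⟨γ⁻¹ * g ^ h * γ, hmem, hw1, ?_⟩, ?_⟩
  · show IsPrimitiveRoot (cdFactor (γ⁻¹ * g ^ h * γ) (γ⁻¹ • τc) ^ 2) e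
    rw [hw2]
    exact hprim.pow hs hhe.symm
  · intro w A B x hA hr
    have hx0 := ne_zero_of_isRatio N A B x hA hr
    rw [← hve x hx0, valLLC_smul_eq]
    exact Fermat.Agent.F3Ratio.neg_log_valLL_embHom (Dvd.intro_left 2 rfl) x A B hA hr (γ⁻¹ • τc)

set_option maxHeartbeats 2000000 in
set_option synthInstance.maxHeartbeats 400000 in
/-- **(D2b)** points → places: every `τ ∈ ℍ` is the centre of a chart of a place of `FC N`. -/
theorem dictD2b (N : ℕ) [NeZero N] : F3I2.DictD2b N := by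
  haveI : NeZero (2 * N) := ⟨Nat.mul_ne_zero two_ne_zero (NeZero.ne N)⟩
  have h2 : 2 ≤ 2 * N := by
    have := Nat.pos_of_ne_zero (NeZero.ne N)
    omega
  intro τ
  obtain ⟨τc, s, g, hj, hs, hval, hgτ, -, hgs, hprim⟩ := exists_local_point (2 * N) h2 (jFun τ)
  obtain ⟨γ', hγ'⟩ := exists_smul_eq_of_jFun_eq τc τ hj
  obtain ⟨ht1, ht2, ht3, ht4⟩ := fibre_hyps_sub (phiC N) (jBar N) (jLL (2 * N)) (phiC_jBar N)
    (transcendental_jBar_aux N) (smul_jLL (2 * N))
    (Fermat.Agent.F3DictInv.mem_adjoin_jLL_of_invariant' (2 * N)) (jFun τ)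
  obtain ⟨v, e, h, -, he, -, hhe, hmem, hve⟩ := exists_place_of_point_fibre_hom (phiC N)
    (jBar N - algebraMap ℂ ↥(F3I2.FC N) (jFun τ)) ht1 (exists_finiteIndex_fixing (2 * N)) ht2 ht3
    (Gamma0 N) (mem_Gamma0_iff_phiC N) (valLL (2 * N) τc) s g
    (fun a ha => valLL_algebraMap_Kbar (2 * N) τc ha) hs (by rw [ht4]; exact hval)
    (fun x => valLL_smul (2 * N) g hgτ x) hgs γ'⁻¹
  have hchart := chart_of_fibre N τc s g hgτ hs hprim γ'⁻¹ e h he hhe hmem v hve
  rw [inv_inv, hγ'] at hchart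
  exact ⟨v, e, hchart⟩

set_option maxHeartbeats 2000000 in
set_option synthInstance.maxHeartbeats 400000 in
/-- **(D2a)** places → points: every place of `FC N` has a chart at a point of `ℍ` or at a cusp,
given the ratio bridge at the cusps (R∞). -/
theorem dictD2a_of (N : ℕ) [NeZero N] (hRinf : RatioCusp N) : F3I2.DictD2a N := by
  haveI : NeZero (2 * N) := ⟨Nat.mul_ne_zero two_ne_zero (NeZero.ne N)⟩
  have h2 : 2 ≤ 2 * N := by
    have := Nat.pos_of_ne_zero (NeZero.ne N)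
    omega
  intro v
  rcases exists_ord_pos_or_neg_of_hom (phiC N) (jBar N) (jLL (2 * N)) (phiC_jBar N)
    (transcendental_jBar_aux N) (exists_finiteIndex_fixing (2 * N)) (smul_jLL (2 * N))
    (Fermat.Agent.F3DictInv.mem_adjoin_jLL_of_invariant' (2 * N)) v with ⟨c, hc⟩ | hinf
  · left
    obtain ⟨τc, s, g, -, hs, hval, hgτ, -, hgs, hprim⟩ := exists_local_point (2 * N) h2 c
    obtain ⟨ht1, ht2, ht3, ht4⟩ := fibre_hyps_sub (phiC N) (jBar N) (jLL (2 * N)) (phiC_jBar N)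
      (transcendental_jBar_aux N) (smul_jLL (2 * N))
      (Fermat.Agent.F3DictInv.mem_adjoin_jLL_of_invariant' (2 * N)) c
    obtain ⟨γ, e, h, he, -, hhe, hmem, hve⟩ := exists_point_of_place_fibre_hom (phiC N)
      (jBar N - algebraMap ℂ ↥(F3I2.FC N) c) ht1 (exists_finiteIndex_fixing (2 * N)) ht2 ht3
      (Gamma0 N) (mem_Gamma0_iff_phiC N) (valLL (2 * N) τc) s g
      (fun a ha => valLL_algebraMap_Kbar (2 * N) τc ha) hs (by rw [ht4]; exact hval)
      (fun x => valLL_smul (2 * N) g hgτ x) hgs v hc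
    exact ⟨γ⁻¹ • τc, e, chart_of_fibre N τc s g hgτ hs hprim γ e h he hhe hmem v hve⟩
  · right
    obtain ⟨ht1, ht2, ht3, ht4⟩ := fibre_hyps_inv (phiC N) (jBar N) (jLL (2 * N)) (phiC_jBar N)
      (transcendental_jBar_aux N) (smul_jLL (2 * N))
      (Fermat.Agent.F3DictInv.mem_adjoin_jLL_of_invariant' (2 * N))
    have hM0 : 0 < 2 * N := by omega
    obtain ⟨γ, e, h, he, hh, hhe, hmem, hve⟩ := exists_point_of_place_fibre_hom (phiC N)
      (jBar N)⁻¹ ht1 (exists_finiteIndex_fixing (2 * N)) ht2 ht3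
      (Gamma0 N) (mem_Gamma0_iff_phiC N) (winfC (2 * N)) (2 * N) ModularGroup.T
      (fun a ha => winfC_algebraMap (2 * N) ha) hM0
      (by rw [ht4, map_inv₀, winfC_jLL, ← WithZero.exp_neg])
      (fun x => winfC_T_smul (2 * N) x) (T_zpow_smul_eq_iff (2 * N)) v hinf
    refine ⟨γ⁻¹, h, e, hh, he, ?_, ?_⟩
    · rw [inv_inv]
      exact hmem
    · intro w A B x hA hr
      have hx0 := ne_zero_of_isRatio N A B x hA hr
      rw [← hve x hx0, hhe]
      exact hRinf γ w A B x hA hr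

/-! ### (HPD) and (CONST) -/

/-- **(HPD)** principal divisors of `FC N`. -/
theorem dictHPD (N : ℕ) [NeZero N] : F3I2.DictHPD N :=
  Fermat.Agent.S24Diff.hasPrincipalDivisors (isFunctionFieldOver_jBar N)

/-- **(CONST)** an element of `FC N` without zeros and poles is constant. -/
theorem dictConst (N : ℕ) [NeZero N] : F3I2.DictConst N := fun x _ hv =>
  exists_algebraMap_eq_of_forall_ord_eq_zero (isFunctionFieldOver_jBar N) x hv

end Fermat.Agent.F3Charts
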