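/-
Cluster A / F3-I2, piece (D): (CONST) an element of a function field without zeros is a constant,
abstract form (helper84).  (HPD) is `Fermat.Agent.S24Diff.hasPrincipalDivisors`.
-/
import Mathlib
import Fermat.Prelude.Def_AlgebraicCurve_CanonicalDivisor
import Fermat.Agent.S24.FundId
import Fermat.Agent.S24.RHCounts

set_option autoImplicit false
set_option linter.style.haveILetI false

open AlgebraicCurve IntermediateField

namespace Fermat.Agent.F3Places

open Fermat.Agent.S24Diff

variable {K F : Type*} [Field K] [IsAlgClosed K] [CharZero K] [Field F] [Algebra K F]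

/-- (CONST) an element of a function field over an algebraically closed field of characteristic
`0` that has no zero is a constant. -/
theorem exists_algebraMap_eq_of_forall_ord_le {t : F} (h : IsFunctionFieldOver K F t) (x : F)
    (hv : ∀ v : Place K F, v.ord x ≤ 0) : ∃ a : K, x = algebraMap K F a := by
  by_contra hcon
  have htr : Transcendental K x := by
    intro halg
    obtain ⟨a, ha⟩ := exists_algebraMap_eq_of_isAlgebraic halg
    exact hcon ⟨a, ha.symm⟩
  have hsum := Fermat.Agent.S24Fund.sum_ord_zeros h htr 0
  haveI : FiniteDimensional K⟮x⟯ F := (h.of_transcendental htr).finite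
  have hpos : 0 < Module.finrank K⟮x⟯ F := Module.finrank_pos
  have hle : ∑ v ∈ (Fermat.Agent.S24Fund.finite_zeros h htr 0).toFinset,
      v.ord (x - algebraMap K F 0) ≤ 0 := by
    refine Finset.sum_nonpos fun v _ => ?_
    rw [map_zero, sub_zero]
    exact hv v
  rw [hsum] at hle
  have : (0 : ℤ) < Module.finrank K⟮x⟯ F := by exact_mod_cast hpos
  omega

/-- (CONST) in the form of the interface. -/
theorem exists_algebraMap_eq_of_forall_ord_eq_zero {t : F} (h : IsFunctionFieldOver K F t) (x : F)
    (hv : ∀ v : Place K F, v.ord x = 0) : ∃ a : K, x = algebraMap K F a :=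
  exists_algebraMap_eq_of_forall_ord_le h x fun v => (hv v).le

end Fermat.Agent.F3Places
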