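/-
F3 / Dict (C2): stabilisers of points of the upper half plane in `SL(2,ℤ)`  (helper92).

* `eq_one_or_eq_neg_one_of_smul_eq` : `γ • τ = τ`, `E₄ τ ≠ 0`, `E₆ τ ≠ 0` ⇒ `γ = 1 ∨ γ = -1`.
* `jFun_eq_zero_or_of_smul_eq`      : `γ • τ = τ`, `γ ≠ 1`, `γ ≠ -1` ⇒ `jFun τ = 0 ∨ jFun τ = 1728`.
* `stabilizer_I`   : the stabiliser of `I` is `zpowers S` (order 4).
* `stabilizer_rho` : the stabiliser of `ρ` is `zpowers (S * T)` (order 6, contains `-1`).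
-/
import Mathlib
import Fermat.Agent.S24.JLocal

set_option autoImplicit false

noncomputable section

namespace Fermat.Agent.F3Stab

open UpperHalfPlane ModularForm EisensteinSeries
open scoped MatrixGroups ModularForm

open Fermat.Agent.S24 Fermat.Agent.S24.JLocal

/-- the automorphy factor `c τ + d`. -/
def cd (γ : SL(2, ℤ)) (τ : ℍ) : ℂ := (γ 1 0 : ℂ) * (τ : ℂ) + (γ 1 1 : ℂ)

theorem cd_ne_zero (γ : SL(2, ℤ)) (τ : ℍ) : cd γ τ ≠ 0 := by
  have h := denom_ne_zero (γ : GL (Fin 2) ℝ) τ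
  rwa [ModularGroup.denom_apply] at h

theorem coe_smul_eq (γ : SL(2, ℤ)) (τ : ℍ) :
    ((γ • τ : ℍ) : ℂ) = ((γ 0 0 : ℂ) * (τ : ℂ) + (γ 0 1 : ℂ)) / cd γ τ := by
  rw [UpperHalfPlane.coe_specialLinearGroup_apply]
  simp [cd]

/-- the fixed point equation. -/
theorem fixed_eq {γ : SL(2, ℤ)} {τ : ℍ} (h : γ • τ = τ) :
    (γ 0 0 : ℂ) * (τ : ℂ) + (γ 0 1 : ℂ) = (τ : ℂ) * cd γ τ := by
  have h1 : ((γ • τ : ℍ) : ℂ) = (τ : ℂ) := by rw [h]
  rw [coe_smul_eq] at h1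
  have hne := cd_ne_zero γ τ
  field_simp at h1
  exact h1

theorem E₄_smul (γ : SL(2, ℤ)) (τ : ℍ) : E₄ (γ • τ) = cd γ τ ^ 4 * E₄ τ := by
  have h4 : E₄ (γ • τ) = denom γ τ ^ (4 : ℤ) * E₄ τ :=
    SlashInvariantForm.slash_action_eqn'' (Γ := 𝒮ℒ) E₄
      (γ := (γ : GL (Fin 2) ℝ)) (show (γ : GL (Fin 2) ℝ) ∈ 𝒮ℒ from ⟨γ, rfl⟩) τ
  rw [h4, ModularGroup.denom_apply]
  rfl

theorem E₆_smul (γ : SL(2, ℤ)) (τ : ℍ) : E₆ (γ • τ) = cd γ τ ^ 6 * E₆ τ := by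
  have h6 : E₆ (γ • τ) = denom γ τ ^ (6 : ℤ) * E₆ τ :=
    SlashInvariantForm.slash_action_eqn'' (Γ := 𝒮ℒ) E₆
      (γ := (γ : GL (Fin 2) ℝ)) (show (γ : GL (Fin 2) ℝ) ∈ 𝒮ℒ from ⟨γ, rfl⟩) τ
  rw [h6, ModularGroup.denom_apply]
  rfl

theorem det_eq (γ : SL(2, ℤ)) : γ 0 0 * γ 1 1 - γ 0 1 * γ 1 0 = 1 := by
  have h := γ.det_coe
  rw [Matrix.det_fin_two] at h
  exact h

theorem ext_entries {γ γ' : SL(2, ℤ)} (h00 : γ 0 0 = γ' 0 0) (h01 : γ 0 1 = γ' 0 1)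
    (h10 : γ 1 0 = γ' 1 0) (h11 : γ 1 1 = γ' 1 1) : γ = γ' := by
  ext i j
  fin_cases i <;> fin_cases j <;> assumption

/-- if `c τ + d = ±1` and `γ` fixes `τ` then `γ = ±1`. -/
theorem eq_of_cd_sq_eq_one {γ : SL(2, ℤ)} {τ : ℍ} (h : γ • τ = τ) (h2 : cd γ τ ^ 2 = 1) :
    γ = 1 ∨ γ = -1 := by
  have hτ : 0 < (τ : ℂ).im := τ.im_pos
  have hdet := det_eq γ
  have hfix := fixed_eq h
  have him : (cd γ τ).im = (γ 1 0 : ℝ) * (τ : ℂ).im := by simp [cd]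
  have hre : (cd γ τ).re = (γ 1 0 : ℝ) * (τ : ℂ).re + (γ 1 1 : ℝ) := by simp [cd]
  have hpm : cd γ τ = 1 ∨ cd γ τ = -1 := by
    have : (cd γ τ - 1) * (cd γ τ + 1) = 0 := by linear_combination h2
    rcases mul_eq_zero.mp this with h1 | h1
    · left; linear_combination h1
    · right; linear_combination h1
  -- `c = 0`
  have hc : γ 1 0 = 0 := by
    have hz : (cd γ τ).im = 0 := by
      rcases hpm with h1 | h1 <;> rw [h1] <;> simp
    rw [him] at hz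
    rcases mul_eq_zero.mp hz with h0 | h0
    · exact_mod_cast h0
    · exact absurd h0 hτ.ne'
  have hcd : cd γ τ = (γ 1 1 : ℂ) := by simp [cd, hc]
  rw [hc] at hdet
  have hd : γ 1 1 = 1 ∨ γ 1 1 = -1 := by
    rcases hpm with h1 | h1
    · left; rw [hcd] at h1; exact_mod_cast h1
    · right; rw [hcd] at h1; exact_mod_cast h1
  have ha : γ 0 0 = γ 1 1 := by
    rcases hd with h1 | h1 <;> rw [h1] at hdet ⊢ <;> linarith
  -- `b = 0`
  have hb : γ 0 1 = 0 := by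
    rw [hcd, ha] at hfix
    have : ((γ 0 1 : ℤ) : ℂ) = 0 := by linear_combination hfix
    exact_mod_cast this
  rcases hd with h1 | h1
  · left
    refine ext_entries ?_ ?_ ?_ ?_ <;> simp [ha, hb, hc, h1]
  · right
    refine ext_entries ?_ ?_ ?_ ?_ <;> simp [ha, hb, hc, h1]

/-- **Trivial stabiliser away from the elliptic points.** -/
theorem eq_one_or_eq_neg_one_of_smul_eq {γ : SL(2, ℤ)} {τ : ℍ} (h : γ • τ = τ)
    (h4 : E₄ τ ≠ 0) (h6 : E₆ τ ≠ 0) : γ = 1 ∨ γ = -1 := by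
  have e4 : cd γ τ ^ 4 = 1 := by
    have := E₄_smul γ τ
    rw [h] at this
    have h' : (cd γ τ ^ 4 - 1) * E₄ τ = 0 := by linear_combination -this
    rcases mul_eq_zero.mp h' with h1 | h1
    · linear_combination h1
    · exact absurd h1 h4
  have e6 : cd γ τ ^ 6 = 1 := by
    have := E₆_smul γ τ
    rw [h] at this
    have h' : (cd γ τ ^ 6 - 1) * E₆ τ = 0 := by linear_combination -this
    rcases mul_eq_zero.mp h' with h1 | h1
    · linear_combination h1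
    · exact absurd h1 h6
  have e2 : cd γ τ ^ 2 = 1 := by
    have : cd γ τ ^ 6 = cd γ τ ^ 4 * cd γ τ ^ 2 := by ring
    rw [e6, e4, one_mul] at this
    exact this.symm
  exact eq_of_cd_sq_eq_one h e2

/-- **Nontrivial stabiliser ⇒ `j ∈ {0, 1728}`.** -/
theorem jFun_eq_zero_or_of_smul_eq {γ : SL(2, ℤ)} {τ : ℍ} (h : γ • τ = τ)
    (hγ : γ ≠ 1) (hγ' : γ ≠ -1) : jFun τ = 0 ∨ jFun τ = 1728 := by
  by_cases h4 : E₄ τ = 0
  · exact Or.inl ((jFun_eq_zero_iff τ).mpr h4)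
  by_cases h6 : E₆ τ = 0
  · exact Or.inr ((jFun_eq_1728_iff τ).mpr h6)
  rcases eq_one_or_eq_neg_one_of_smul_eq h h4 h6 with h1 | h1
  · exact absurd h1 hγ
  · exact absurd h1 hγ'

/-- contrapositive form. -/
theorem stabilizer_of_jFun {τ : ℍ} (h0 : jFun τ ≠ 0) (h1 : jFun τ ≠ 1728) (γ : SL(2, ℤ)) :
    γ • τ = τ ↔ γ = 1 ∨ γ = -1 := by
  constructor
  · intro h
    by_contra hcon
    push Not at hcon
    rcases jFun_eq_zero_or_of_smul_eq h hcon.1 hcon.2 with h' | h'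
    · exact h0 h'
    · exact h1 h'
  · rintro (rfl | rfl)
    · exact one_smul _ _
    · exact ModularGroup.SL_neg_smul 1 τ ▸ one_smul _ _

/-! ### The stabiliser of `i` -/

theorem mul_entry (A B : SL(2, ℤ)) (i j : Fin 2) :
    (A * B) i j = A i 0 * B 0 j + A i 1 * B 1 j := by
  rw [Matrix.SpecialLinearGroup.coe_mul, Matrix.mul_apply, Fin.sum_univ_two]

theorem S_entries : (ModularGroup.S 0 0 = 0) ∧ (ModularGroup.S 0 1 = -1) ∧
    (ModularGroup.S 1 0 = 1) ∧ (ModularGroup.S 1 1 = 0) := by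
  refine ⟨?_, ?_, ?_, ?_⟩ <;> simp [ModularGroup.S]

theorem T_entries : (ModularGroup.T 0 0 = 1) ∧ (ModularGroup.T 0 1 = 1) ∧
    (ModularGroup.T 1 0 = 0) ∧ (ModularGroup.T 1 1 = 1) := by
  refine ⟨?_, ?_, ?_, ?_⟩ <;> simp [ModularGroup.T]

theorem entries_of_smul_I {γ : SL(2, ℤ)} (h : γ • UpperHalfPlane.I = UpperHalfPlane.I) :
    γ 1 1 = γ 0 0 ∧ γ 0 1 = -γ 1 0 := by
  have hfix := fixed_eq h
  simp only [cd, UpperHalfPlane.coe_I] at hfix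
  have hre := congrArg Complex.re hfix
  have him := congrArg Complex.im hfix
  simp at hre him
  constructor
  · exact_mod_cast him.symm
  · exact_mod_cast hre

theorem sq_add_sq_eq_one {a c : ℤ} (h : a * a + c * c = 1) :
    (a = 1 ∧ c = 0) ∨ (a = -1 ∧ c = 0) ∨ (a = 0 ∧ c = 1) ∨ (a = 0 ∧ c = -1) := by
  have ha : -1 ≤ a ∧ a ≤ 1 := by constructor <;> nlinarith
  have hc : -1 ≤ c ∧ c ≤ 1 := by constructor <;> nlinarith
  obtain ⟨ha1, ha2⟩ := ha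
  obtain ⟨hc1, hc2⟩ := hc
  interval_cases a <;> interval_cases c <;> simp_all

theorem stabilizer_I :
    MulAction.stabilizer SL(2, ℤ) UpperHalfPlane.I = Subgroup.zpowers ModularGroup.S := by
  apply le_antisymm
  · intro γ hγ
    rw [MulAction.mem_stabilizer_iff] at hγ
    obtain ⟨hd, hb⟩ := entries_of_smul_I hγ
    have hdet := det_eq γ
    rw [hd, hb] at hdet
    have hsq : γ 0 0 * γ 0 0 + γ 1 0 * γ 1 0 = 1 := by linarith
    obtain ⟨hS00, hS01, hS10, hS11⟩ := S_entries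
    rw [Subgroup.mem_zpowers_iff]
    rcases sq_add_sq_eq_one hsq with ⟨ha, hc⟩ | ⟨ha, hc⟩ | ⟨ha, hc⟩ | ⟨ha, hc⟩
    · refine ⟨0, ?_⟩
      rw [zpow_zero]
      refine ext_entries ?_ ?_ ?_ ?_ <;> simp [ha, hc, hd, hb]
    · refine ⟨2, ?_⟩
      rw [zpow_two]
      refine ext_entries ?_ ?_ ?_ ?_ <;>
        simp only [mul_entry, ha, hc, hd, hb, hS00, hS01, hS10, hS11] <;> norm_num
    · refine ⟨1, ?_⟩
      rw [zpow_one]
      refine ext_entries ?_ ?_ ?_ ?_ <;> simp only [ha, hc, hd, hb, hS00, hS01, hS10, hS11]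
    · refine ⟨3, ?_⟩
      have e3 : ModularGroup.S ^ (3 : ℤ) = ModularGroup.S * ModularGroup.S * ModularGroup.S := by
        rw [show (3 : ℤ) = ((3 : ℕ) : ℤ) from rfl, zpow_natCast, pow_succ, pow_two]
      rw [e3]
      refine ext_entries ?_ ?_ ?_ ?_ <;>
        simp only [mul_entry, ha, hc, hd, hb, hS00, hS01, hS10, hS11] <;> norm_num
  · rw [Subgroup.zpowers_le]
    exact MulAction.mem_stabilizer_iff.mpr S_smul_I'

/-! ### The stabiliser of `ρ` -/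

theorem ST_entries : ((ModularGroup.S * ModularGroup.T) 0 0 = 0) ∧
    ((ModularGroup.S * ModularGroup.T) 0 1 = -1) ∧
    ((ModularGroup.S * ModularGroup.T) 1 0 = 1) ∧ ((ModularGroup.S * ModularGroup.T) 1 1 = 1) := by
  obtain ⟨hS00, hS01, hS10, hS11⟩ := S_entries
  obtain ⟨hT00, hT01, hT10, hT11⟩ := T_entries
  refine ⟨?_, ?_, ?_, ?_⟩ <;>
    simp only [mul_entry, hS00, hS01, hS10, hS11, hT00, hT01, hT10, hT11] <;> norm_num

theorem entries_of_smul_rho {γ : SL(2, ℤ)} (h : γ • UpperHalfPlane.ρ = UpperHalfPlane.ρ) :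
    γ 1 1 = γ 0 0 + γ 1 0 ∧ γ 0 1 = -γ 1 0 := by
  have hfix := fixed_eq h
  simp only [cd] at hfix
  have hsq : ((UpperHalfPlane.ρ : ℍ) : ℂ) ^ 2 = -(UpperHalfPlane.ρ : ℂ) - 1 := UpperHalfPlane.ρ_sq
  -- `(a - d + c) ρ + (b + c) = 0`
  have hlin : (((γ 0 0 - γ 1 1 + γ 1 0 : ℤ) : ℂ)) * (UpperHalfPlane.ρ : ℂ) +
      ((γ 0 1 + γ 1 0 : ℤ) : ℂ) = 0 := by
    push_cast
    linear_combination hfix + (γ 1 0 : ℂ) * hsq
  have him := congrArg Complex.im hlin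
  have hρim : ((UpperHalfPlane.ρ : ℍ) : ℂ).im ≠ 0 := (UpperHalfPlane.ρ).im_pos.ne'
  simp only [Complex.add_im, Complex.mul_im, Complex.intCast_re, Complex.intCast_im,
    zero_mul, add_zero, Complex.zero_im] at him
  have h1 : ((γ 0 0 - γ 1 1 + γ 1 0 : ℤ) : ℝ) = 0 := by
    rcases mul_eq_zero.mp him with h0 | h0
    · exact h0
    · exact absurd h0 hρim
  have h1' : γ 0 0 - γ 1 1 + γ 1 0 = 0 := by exact_mod_cast h1
  rw [h1'] at hlin
  have h2 : ((γ 0 1 + γ 1 0 : ℤ) : ℂ) = 0 := by simpa using hlin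
  have h2' : γ 0 1 + γ 1 0 = 0 := by exact_mod_cast h2
  constructor <;> linarith

theorem sq_add_mul_add_sq_eq_one {a c : ℤ} (h : a * a + a * c + c * c = 1) :
    (a = 1 ∧ c = 0) ∨ (a = -1 ∧ c = 0) ∨ (a = 0 ∧ c = 1) ∨ (a = 0 ∧ c = -1) ∨
      (a = 1 ∧ c = -1) ∨ (a = -1 ∧ c = 1) := by
  have ha : -1 ≤ a ∧ a ≤ 1 := by constructor <;> nlinarith [sq_nonneg (a + 2 * c)]
  have hc : -1 ≤ c ∧ c ≤ 1 := by constructor <;> nlinarith [sq_nonneg (2 * a + c)]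
  obtain ⟨ha1, ha2⟩ := ha
  obtain ⟨hc1, hc2⟩ := hc
  interval_cases a <;> interval_cases c <;> simp_all

theorem stabilizer_rho :
    MulAction.stabilizer SL(2, ℤ) UpperHalfPlane.ρ =
      Subgroup.zpowers (ModularGroup.S * ModularGroup.T) := by
  apply le_antisymm
  · intro γ hγ
    rw [MulAction.mem_stabilizer_iff] at hγ
    obtain ⟨hd, hb⟩ := entries_of_smul_rho hγ
    have hdet := det_eq γ
    rw [hd, hb] at hdet
    have hsq : γ 0 0 * γ 0 0 + γ 0 0 * γ 1 0 + γ 1 0 * γ 1 0 = 1 := by linarith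
    obtain ⟨h00, h01, h10, h11⟩ := ST_entries
    set U := ModularGroup.S * ModularGroup.T with hU
    have p2 : U ^ (2 : ℤ) = U * U := zpow_two U
    have p3 : U ^ (3 : ℤ) = U * U * U := by
      rw [show (3 : ℤ) = ((3 : ℕ) : ℤ) from rfl, zpow_natCast, pow_succ, pow_two]
    have p4 : U ^ (4 : ℤ) = U * U * U * U := by
      rw [show (4 : ℤ) = ((4 : ℕ) : ℤ) from rfl, zpow_natCast, pow_succ, pow_succ, pow_two]
    have p5 : U ^ (5 : ℤ) = U * U * U * U * U := by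
      rw [show (5 : ℤ) = ((5 : ℕ) : ℤ) from rfl, zpow_natCast, pow_succ, pow_succ, pow_succ,
        pow_two]
    rw [Subgroup.mem_zpowers_iff]
    rcases sq_add_mul_add_sq_eq_one hsq with ⟨ha, hc⟩ | ⟨ha, hc⟩ | ⟨ha, hc⟩ | ⟨ha, hc⟩ |
        ⟨ha, hc⟩ | ⟨ha, hc⟩
    · -- `1`
      refine ⟨0, ?_⟩
      rw [zpow_zero]
      refine ext_entries ?_ ?_ ?_ ?_ <;> simp [ha, hc, hd, hb]
    · -- `-1 = U^3`
      refine ⟨3, ?_⟩
      rw [p3]
      refine ext_entries ?_ ?_ ?_ ?_ <;>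
        simp only [mul_entry, ha, hc, hd, hb, h00, h01, h10, h11] <;> norm_num
    · -- `U`
      refine ⟨1, ?_⟩
      rw [zpow_one]
      refine ext_entries ?_ ?_ ?_ ?_ <;> norm_num [ha, hc, hd, hb, h00, h01, h10, h11]
    · -- `-U = U^4`
      refine ⟨4, ?_⟩
      rw [p4]
      refine ext_entries ?_ ?_ ?_ ?_ <;>
        simp only [mul_entry, ha, hc, hd, hb, h00, h01, h10, h11] <;> norm_num
    · -- `U^5`
      refine ⟨5, ?_⟩
      rw [p5]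
      refine ext_entries ?_ ?_ ?_ ?_ <;>
        simp only [mul_entry, ha, hc, hd, hb, h00, h01, h10, h11] <;> norm_num
    · -- `U^2`
      refine ⟨2, ?_⟩
      rw [p2]
      refine ext_entries ?_ ?_ ?_ ?_ <;>
        simp only [mul_entry, ha, hc, hd, hb, h00, h01, h10, h11] <;> norm_num
  · rw [Subgroup.zpowers_le]
    exact MulAction.mem_stabilizer_iff.mpr ST_smul_rho

/-- `-1 ∈ zpowers (S * T)` and `-1 ∈ zpowers S`. -/
theorem neg_one_mem_zpowers_S : (-1 : SL(2, ℤ)) ∈ Subgroup.zpowers ModularGroup.S := by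
  rw [← stabilizer_I, MulAction.mem_stabilizer_iff]
  exact ModularGroup.SL_neg_smul 1 _ ▸ one_smul _ _

theorem neg_one_mem_zpowers_ST :
    (-1 : SL(2, ℤ)) ∈ Subgroup.zpowers (ModularGroup.S * ModularGroup.T) := by
  rw [← stabilizer_rho, MulAction.mem_stabilizer_iff]
  exact ModularGroup.SL_neg_smul 1 _ ▸ one_smul _ _

end Fermat.Agent.F3Stab
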