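/-
Cluster A / F3-I2, piece (D2): a counting lemma (helper84).
For `g` with `γ⁻¹ g^s γ ∈ H` the set `{k | γ⁻¹ g^k γ ∈ H}` is `h ℤ` with `h ∣ s`, and the number
of its elements in `[0, s)` is `s / h`.
-/
import Mathlib

set_option autoImplicit false

namespace Fermat.Agent.F3Places

theorem card_filter_dvd_range (h m : ℕ) (hh : 0 < h) :
    ((Finset.range (h * m)).filter (fun k => h ∣ k)).card = m := by
  have key : (Finset.range (h * m)).filter (fun k => h ∣ k) =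
      (Finset.range m).image (fun i => h * i) := by
    ext k
    simp only [Finset.mem_filter, Finset.mem_range, Finset.mem_image]
    constructor
    · rintro ⟨hk, i, rfl⟩
      exact ⟨i, Nat.lt_of_mul_lt_mul_left hk, rfl⟩
    · rintro ⟨i, hi, rfl⟩
      exact ⟨Nat.mul_lt_mul_of_pos_left hi hh, dvd_mul_right h i⟩
  rw [key, Finset.card_image_of_injective _ (fun a b hab => Nat.eq_of_mul_eq_mul_left hh hab),
    Finset.card_range]

/-- the subgroup `{k | γ⁻¹ g^k γ ∈ H}` of `ℤ`. -/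
def conjPowSubgroup {Γ : Type*} [Group Γ] (H : Subgroup Γ) (g γ : Γ) : AddSubgroup ℤ where
  carrier := {k | γ⁻¹ * g ^ k * γ ∈ H}
  zero_mem' := by
    show γ⁻¹ * g ^ (0 : ℤ) * γ ∈ H
    simp
  add_mem' := by
    intro a b ha hb
    show γ⁻¹ * g ^ (a + b) * γ ∈ H
    have : γ⁻¹ * g ^ (a + b) * γ = (γ⁻¹ * g ^ a * γ) * (γ⁻¹ * g ^ b * γ) := by
      rw [zpow_add]; group
    rw [this]
    exact H.mul_mem ha hb
  neg_mem' := by
    intro a ha
    show γ⁻¹ * g ^ (-a) * γ ∈ H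
    have : γ⁻¹ * g ^ (-a) * γ = (γ⁻¹ * g ^ a * γ)⁻¹ := by
      rw [zpow_neg]; group
    rw [this]
    exact H.inv_mem ha

theorem mem_conjPowSubgroup {Γ : Type*} [Group Γ] (H : Subgroup Γ) (g γ : Γ) (k : ℤ) :
    k ∈ conjPowSubgroup H g γ ↔ γ⁻¹ * g ^ k * γ ∈ H := Iff.rfl

open Classical in
/-- (CY) the width: `h * #{k < s | γ⁻¹ g^k γ ∈ H} = s` and `γ⁻¹ g^h γ ∈ H`. -/
theorem exists_width {Γ : Type*} [Group Γ] (H : Subgroup Γ) (g γ : Γ) (s : ℕ) (hs : 0 < s)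
    (hgs : γ⁻¹ * g ^ s * γ ∈ H) :
    ∃ h : ℕ, 0 < h ∧
      h * ((Finset.range s).filter (fun k => γ⁻¹ * g ^ k * γ ∈ H)).card = s ∧
      γ⁻¹ * g ^ h * γ ∈ H := by
  obtain ⟨a, ha⟩ := Int.subgroup_cyclic (conjPowSubgroup H g γ)
  have hmem : ∀ k : ℤ, γ⁻¹ * g ^ k * γ ∈ H ↔ a ∣ k := by
    intro k
    rw [← mem_conjPowSubgroup, ha, ← AddSubgroup.zmultiples_eq_closure,
      Int.mem_zmultiples_iff]
  have hsa : a ∣ (s : ℤ) := by
    rw [← hmem]
    simpa using hgs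
  have ha0 : a ≠ 0 := by
    rintro rfl
    have := zero_dvd_iff.mp hsa
    omega
  refine ⟨a.natAbs, Int.natAbs_pos.mpr ha0, ?_, ?_⟩
  · have hdvd : a.natAbs ∣ s := Int.natAbs_dvd_natAbs.mpr hsa
    obtain ⟨m, rfl⟩ := hdvd
    have hfil : (Finset.range (a.natAbs * m)).filter (fun k => γ⁻¹ * g ^ k * γ ∈ H) =
        (Finset.range (a.natAbs * m)).filter (fun k => a.natAbs ∣ k) := by
      refine Finset.filter_congr fun k _ => ?_
      have := hmem (k : ℤ)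
      rw [zpow_natCast] at this
      rw [this, Int.dvd_natCast]
    rw [hfil, card_filter_dvd_range _ _ (Int.natAbs_pos.mpr ha0)]
  · have := (hmem (a.natAbs : ℤ)).mpr (by rw [Int.dvd_natCast])
    rwa [zpow_natCast] at this

end Fermat.Agent.F3Places
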